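import Mathlib
import Fermat.Agent.S54.Frobenius

/-!
# W7 (DENS), part (C): transfer of a finite-level Frobenius to the prelude spelling (helper27)

`M` is an intermediate field of `ℚ̄ / ℚ`, normal over `ℚ`; `Q` is a prime of `𝓞 M` over the rational
prime `ℓ` and `τ ∈ Gal(M/ℚ)` is a Frobenius at `Q` (raw form: `τ • x - x ^ ℓ ∈ Q` for every
`x : 𝓞 M`).  If the Frobenius at `Q` is unique (raw form: an automorphism acting trivially on
`𝓞 M / Q` is `1`), there are a valuation subring `A` of `ℚ̄` over `ℓ` and a Frobenius `σ` at `A`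
in the prelude's sense (`ValuationSubring.IsFrobeniusAt`) with `σ|_M = τ`.

* `exists_frobenius_lift`        : the transfer, with uniqueness as a hypothesis;
* `exists_finset_frob_unique`    : uniqueness holds outside a finite set of rational primes;
* `exists_finset_frobenius_lift` : the two combined.
-/

set_option autoImplicit false
set_option linter.unusedSectionVars false
set_option linter.style.haveILetI false

open NumberField

noncomputable section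

namespace Fermat.Agent.S42x.Dens.H27

local notation "Qb" => AlgebraicClosure ℚ

variable (M : IntermediateField ℚ Qb)

/-- The inclusion `𝓞 M → ℚ̄`. -/
def ooIncl : 𝓞 M →+* Qb :=
  (algebraMap M Qb).comp (algebraMap (𝓞 M) M)

theorem ooIncl_apply (x : 𝓞 M) : ooIncl M x = ((x : M) : Qb) := rfl

theorem ooIncl_injective : Function.Injective (ooIncl M) := by
  intro x y h
  have h1 : (x : M) = (y : M) := Subtype.ext h
  exact RingOfIntegers.ext h1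

theorem ooIncl_isIntegral (x : 𝓞 M) : IsIntegral ℤ (ooIncl M x) := by
  have hx : IsIntegral ℤ (x : M) := RingOfIntegers.isIntegral_coe x
  exact hx.map (IsScalarTower.toAlgHom ℤ M Qb)

theorem ooIncl_mem (A : ValuationSubring Qb) (x : 𝓞 M) : ooIncl M x ∈ A :=
  Fermat.Agent.S54.integralClosure_le A ⟨ooIncl M x, ooIncl_isIntegral M x⟩

/-- The prime of `𝓞 M` cut out by a valuation subring of `ℚ̄`. -/
def primeBelow (A : ValuationSubring Qb) : Ideal (𝓞 M) where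
  carrier := {x | ooIncl M x ∈ A.nonunits}
  add_mem' := by
    intro a b ha hb
    have ha' : (⟨ooIncl M a, ooIncl_mem M A a⟩ : A) ∈ IsLocalRing.maximalIdeal A :=
      (ValuationSubring.coe_mem_nonunits_iff (A := A)).mp ha
    have hb' : (⟨ooIncl M b, ooIncl_mem M A b⟩ : A) ∈ IsLocalRing.maximalIdeal A :=
      (ValuationSubring.coe_mem_nonunits_iff (A := A)).mp hb
    have h := Ideal.add_mem _ ha' hb'
    have h2 := (ValuationSubring.coe_mem_nonunits_iff (A := A)).mpr h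
    show ooIncl M (a + b) ∈ A.nonunits
    rw [map_add]
    exact h2
  zero_mem' := by
    show ooIncl M 0 ∈ A.nonunits
    rw [map_zero]
    exact (ValuationSubring.mem_nonunits_iff (A := A)).mpr (by simp)
  smul_mem' := by
    intro c x hx
    show ooIncl M (c • x) ∈ A.nonunits
    rw [smul_eq_mul, map_mul, mul_comm]
    exact Fermat.Agent.S54.mul_mem_nonunits A hx (ooIncl_mem M A c)

theorem mem_primeBelow_iff (A : ValuationSubring Qb) (x : 𝓞 M) :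
    x ∈ primeBelow M A ↔ ooIncl M x ∈ A.nonunits := Iff.rfl

theorem primeBelow_ne_top (A : ValuationSubring Qb) : primeBelow M A ≠ ⊤ := by
  intro h
  have h1 : (1 : 𝓞 M) ∈ primeBelow M A := by rw [h]; trivial
  rw [mem_primeBelow_iff, map_one, ValuationSubring.mem_nonunits_iff, map_one] at h1
  exact lt_irrefl _ h1

variable {M}

/-- A prime of `𝓞 M` containing a rational prime is maximal. -/
theorem isMaximal_of_natCast_mem {ℓ : ℕ} (hℓ : ℓ.Prime) (Q : Ideal (𝓞 M)) [Q.IsPrime]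
    (hQ : (ℓ : 𝓞 M) ∈ Q) : Q.IsMaximal := by
  apply Ideal.isMaximal_of_isIntegral_of_isMaximal_comap (R := ℤ) Q
  have hprime : (Ideal.comap (algebraMap ℤ (𝓞 M)) Q).IsPrime := Ideal.comap_isPrime _ _
  apply hprime.isMaximal
  intro hbot
  have hmem : (ℓ : ℤ) ∈ Ideal.comap (algebraMap ℤ (𝓞 M)) Q := by
    rw [Ideal.mem_comap]
    simpa using hQ
  rw [hbot, Ideal.mem_bot] at hmem
  exact hℓ.ne_zero (by exact_mod_cast hmem)

/-- Every prime of `𝓞 M` over `ℓ` is cut out by a valuation subring of `ℚ̄`. -/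
theorem exists_valuationSubring_primeBelow {ℓ : ℕ} (hℓ : ℓ.Prime) (Q : Ideal (𝓞 M)) [Q.IsPrime]
    (hQ : (ℓ : 𝓞 M) ∈ Q) :
    ∃ A : ValuationSubring Qb, A.LiesOverPrime ℓ ∧ primeBelow M A = Q := by
  haveI hmax : Q.IsMaximal := isMaximal_of_natCast_mem hℓ Q hQ
  let f : 𝓞 M →+* Qb := ooIncl M
  let e : 𝓞 M ≃+* f.range := RingEquiv.ofBijective f.rangeRestrict
    ⟨by
      intro x y h
      have h' : ooIncl M x = ooIncl M y := congrArg (fun z : f.range => (z : Qb)) h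
      exact ooIncl_injective M h', f.rangeRestrict_surjective⟩
  let I : Ideal f.range := Q.comap (e.symm : f.range →+* 𝓞 M)
  have hIprime : I.IsPrime := Ideal.comap_isPrime _ _
  obtain ⟨B, -, hB⟩ := Ideal.image_subset_nonunits_valuationSubring I hIprime.ne_top
  have hsub : Q ≤ primeBelow M B := by
    intro x hx
    rw [mem_primeBelow_iff]
    apply hB
    refine ⟨e x, ?_, rfl⟩
    show e x ∈ Q.comap (e.symm : f.range →+* 𝓞 M)
    rw [Ideal.mem_comap]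
    simpa using hx
  have heq : primeBelow M B = Q := (hmax.eq_of_le (primeBelow_ne_top M B) hsub).symm
  refine ⟨B, ?_, heq⟩
  have h1 := hsub hQ
  rw [mem_primeBelow_iff, map_natCast] at h1
  exact h1

/-- A Frobenius at `A` in the prelude's sense is a Frobenius modulo `𝔪_A`, elementwise. -/
theorem isFrobeniusAt_sub_mem (A : ValuationSubring Qb) (σ : Qb ≃ₐ[ℚ] Qb) (ℓ : ℕ)
    (hσ : A.IsFrobeniusAt σ ℓ) (a : Qb) (ha : a ∈ A) : σ a - a ^ ℓ ∈ A.nonunits := by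
  have h := hσ.smul_residue_eq (IsLocalRing.residue A ⟨a, ha⟩)
  rw [← IsLocalRing.ResidueField.residue_smul, ← map_pow, ← sub_eq_zero, ← map_sub,
    IsLocalRing.residue_eq_zero_iff] at h
  exact (ValuationSubring.coe_mem_nonunits_iff (A := A)).mpr h

variable [Normal ℚ M]

theorem ooIncl_restrictNormal_smul (σ : Qb ≃ₐ[ℚ] Qb) (x : 𝓞 M) :
    ooIncl M ((σ.restrictNormal M) • x) = σ (ooIncl M x) :=
  AlgEquiv.restrictNormal_commutes σ M (x : M)

/-- The restriction to `M` of a Frobenius at `A` is a Frobenius at `primeBelow M A`. -/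
theorem restrictNormal_frob_mem (A : ValuationSubring Qb) (σ : Qb ≃ₐ[ℚ] Qb) (ℓ : ℕ)
    (hσ : A.IsFrobeniusAt σ ℓ) (x : 𝓞 M) :
    (σ.restrictNormal M) • x - x ^ ℓ ∈ primeBelow M A := by
  rw [mem_primeBelow_iff, map_sub, map_pow, ooIncl_restrictNormal_smul]
  exact isFrobeniusAt_sub_mem A σ ℓ hσ _ (ooIncl_mem M A x)

/-- **(C)** Transfer of a finite-level Frobenius to the prelude spelling. -/
theorem exists_frobenius_lift (ℓ : ℕ) (hℓ : ℓ.Prime) (Q : Ideal (𝓞 M)) [Q.IsPrime]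
    (hQ : (ℓ : 𝓞 M) ∈ Q) (τ : M ≃ₐ[ℚ] M) (hτ : ∀ x : 𝓞 M, τ • x - x ^ ℓ ∈ Q)
    (huniq : ∀ ρ : M ≃ₐ[ℚ] M, (∀ x : 𝓞 M, ρ • x - x ∈ Q) → ρ = 1) :
    ∃ (A : ValuationSubring Qb) (σ : Qb ≃ₐ[ℚ] Qb),
      A.LiesOverPrime ℓ ∧ A.IsFrobeniusAt σ ℓ ∧ primeBelow M A = Q ∧ ∀ x : M, σ x = τ x := by
  haveI hmax : Q.IsMaximal := isMaximal_of_natCast_mem hℓ Q hQ
  obtain ⟨A, hA, hAQ⟩ := exists_valuationSubring_primeBelow hℓ Q hQ
  obtain ⟨σ, hσ⟩ := Fermat.Agent.S54.exists_isFrobeniusAt A ℓ hℓ hA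
  refine ⟨A, σ, hA, hσ, hAQ, ?_⟩
  set σM : M ≃ₐ[ℚ] M := σ.restrictNormal M with hσM
  have h1 : ∀ x : 𝓞 M, σM • x - x ^ ℓ ∈ Q := by
    intro x
    rw [← hAQ]
    exact restrictNormal_frob_mem A σ ℓ hσ x
  -- `τ` stabilises `Q`
  have hτQ : ∀ x : 𝓞 M, x ∈ Q → τ • x ∈ Q := by
    intro x hx
    have h2 := hτ x
    have h3 : x ^ ℓ ∈ Q := Ideal.pow_mem_of_mem Q hx ℓ hℓ.pos
    have h4 := Ideal.add_mem Q h2 h3
    simpa using h4
  have hτQ' : ∀ x : 𝓞 M, x ∈ Q → τ⁻¹ • x ∈ Q := by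
    let Q' : Ideal (𝓞 M) := Q.comap (MulSemiringAction.toRingHom (M ≃ₐ[ℚ] M) (𝓞 M) τ)
    have hQ'prime : Q'.IsPrime := Ideal.comap_isPrime _ _
    have hle : Q ≤ Q' := fun x hx => hτQ x hx
    have heq : Q = Q' := hmax.eq_of_le hQ'prime.ne_top hle
    intro x hx
    have : τ⁻¹ • x ∈ Q' := by
      show τ • (τ⁻¹ • x) ∈ Q
      rw [smul_inv_smul]
      exact hx
    rw [heq]
    exact this
  have h5 : ∀ x : 𝓞 M, (τ⁻¹ * σM) • x - x ∈ Q := by
    intro x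
    have h6 : σM • x - τ • x ∈ Q := by
      have := Ideal.sub_mem Q (h1 x) (hτ x)
      simpa using this
    have h7 := hτQ' _ h6
    rw [smul_sub, inv_smul_smul, ← mul_smul] at h7
    exact h7
  have h8 : τ⁻¹ * σM = 1 := huniq _ h5
  have h9 : σM = τ := by
    have := congrArg (fun g => τ * g) h8
    simpa using this
  intro x
  have h10 := AlgEquiv.restrictNormal_commutes σ M x
  rw [← hσM, h9] at h10
  exact h10.symm

/-- **(C), helper16's spelling (#1185)**: every prime `𝔓` of `𝓞 K'` over `ℓ` is cut out by a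
valuation subring `A` of `ℚ̄` over `ℓ`, and the restriction to `K'` of EVERY Frobenius at `A` is a
Frobenius at `𝔓`. -/
theorem exists_valuationSubring_over (K' : IntermediateField ℚ (AlgebraicClosure ℚ))
    [NumberField K'] [Normal ℚ K'] (𝔓 : Ideal (𝓞 K')) [𝔓.IsPrime] (ℓ : ℕ) (hℓ : ℓ.Prime)
    (hℓ𝔓 : (ℓ : 𝓞 K') ∈ 𝔓) :
    ∃ A : ValuationSubring (AlgebraicClosure ℚ), A.LiesOverPrime ℓ ∧
      ∀ σ : AlgebraicClosure ℚ ≃ₐ[ℚ] AlgebraicClosure ℚ, A.IsFrobeniusAt σ ℓ →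
        ∀ x : 𝓞 K', (AlgEquiv.restrictNormalHom K' σ) • x - x ^ ℓ ∈ 𝔓 := by
  obtain ⟨A, hA, hAQ⟩ := exists_valuationSubring_primeBelow hℓ 𝔓 hℓ𝔓
  refine ⟨A, hA, ?_⟩
  intro σ hσ x
  rw [← hAQ]
  exact restrictNormal_frob_mem A σ ℓ hσ x

/-- The same with the prime recorded: `primeBelow K' A = 𝔓`. -/
theorem exists_valuationSubring_over' (K' : IntermediateField ℚ (AlgebraicClosure ℚ))
    [Normal ℚ K'] (𝔓 : Ideal (𝓞 K')) [𝔓.IsPrime] (ℓ : ℕ) (hℓ : ℓ.Prime)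
    (hℓ𝔓 : (ℓ : 𝓞 K') ∈ 𝔓) :
    ∃ A : ValuationSubring (AlgebraicClosure ℚ), A.LiesOverPrime ℓ ∧ primeBelow K' A = 𝔓 ∧
      (∃ σ : AlgebraicClosure ℚ ≃ₐ[ℚ] AlgebraicClosure ℚ, A.IsFrobeniusAt σ ℓ) ∧
      ∀ σ : AlgebraicClosure ℚ ≃ₐ[ℚ] AlgebraicClosure ℚ, A.IsFrobeniusAt σ ℓ →
        ∀ x : 𝓞 K', (AlgEquiv.restrictNormalHom K' σ) • x - x ^ ℓ ∈ 𝔓 := by
  obtain ⟨A, hA, hAQ⟩ := exists_valuationSubring_primeBelow hℓ 𝔓 hℓ𝔓
  refine ⟨A, hA, hAQ, Fermat.Agent.S54.exists_isFrobeniusAt A ℓ hℓ hA, ?_⟩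
  intro σ hσ x
  rw [← hAQ]
  exact restrictNormal_frob_mem A σ ℓ hσ x

omit [Normal ℚ M] in
/-- An automorphism of `M` fixing `𝓞 M` pointwise is trivial. -/
theorem eq_one_of_smul_eq (ρ : M ≃ₐ[ℚ] M) (h : ∀ x : 𝓞 M, ρ • x = x) : ρ = 1 := by
  ext y
  have hy : IsAlgebraic ℤ y := by
    haveI := Fermat.Agent.S54.isAlgebraic_rat
    have h0 : IsAlgebraic ℚ (y : Qb) := Algebra.IsAlgebraic.isAlgebraic _
    have h1 : IsAlgebraic ℚ y := (isAlgebraic_algHom_iff M.val M.val.injective).mp h0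
    exact (IsFractionRing.isAlgebraic_iff ℤ ℚ M).mpr h1
  obtain ⟨d, hd, hint⟩ := hy.exists_integral_multiple
  have h2 := h ⟨d • y, hint⟩
  have h3 : ρ (d • y) = d • y := congrArg (fun z : 𝓞 M => (z : M)) h2
  rw [map_zsmul] at h3
  have hd' : (d : M) ≠ 0 := by exact_mod_cast hd
  rw [zsmul_eq_mul, zsmul_eq_mul] at h3
  have := mul_left_cancel₀ hd' h3
  simpa using this

omit [Normal ℚ M] in
theorem numberField_of_finite [FiniteDimensional ℚ M] : NumberField M where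

omit [Normal ℚ M] in
/-- **Uniqueness of the Frobenius outside a finite set of rational primes.** -/
theorem exists_finset_frob_unique [FiniteDimensional ℚ M] :
    ∃ S₀ : Finset ℕ, ∀ ℓ : ℕ, ℓ.Prime → ℓ ∉ S₀ → ∀ Q : Ideal (𝓞 M), Q.IsPrime →
      (ℓ : 𝓞 M) ∈ Q → ∀ ρ : M ≃ₐ[ℚ] M, (∀ x : 𝓞 M, ρ • x - x ∈ Q) → ρ = 1 := by
  classical
  haveI : NumberField M := numberField_of_finite
  have hex : ∀ ρ : M ≃ₐ[ℚ] M, ∃ x : 𝓞 M, ρ ≠ 1 → ρ • x - x ≠ 0 := by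
    intro ρ
    by_cases hρ : ρ = 1
    · exact ⟨0, fun h => absurd hρ h⟩
    · by_contra hcon
      push Not at hcon
      apply hρ
      apply eq_one_of_smul_eq
      intro x
      obtain ⟨_, h⟩ := hcon x
      exact sub_eq_zero.mp h
  choose x hx using hex
  let N : (M ≃ₐ[ℚ] M) → ℕ := fun ρ => Ideal.absNorm (Ideal.span {ρ • x ρ - x ρ})
  haveI : Fintype (M ≃ₐ[ℚ] M) := Fintype.ofFinite _
  refine ⟨Finset.univ.biUnion (fun ρ => (N ρ).primeFactors), ?_⟩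
  intro ℓ hℓ hℓS Q hQ hℓQ ρ hρ
  by_contra hne
  have hN0 : N ρ ≠ 0 := by
    intro h0
    have h1 : Ideal.span {ρ • x ρ - x ρ} = ⊥ := Ideal.absNorm_eq_zero_iff.mp h0
    rw [Ideal.span_singleton_eq_bot] at h1
    exact hx ρ hne h1
  have hNQ : (N ρ : 𝓞 M) ∈ Q := by
    have h1 := Ideal.absNorm_mem (Ideal.span {ρ • x ρ - x ρ})
    exact ((Ideal.span_singleton_le_iff_mem (I := Q)).mpr (hρ (x ρ))) h1
  have hnd : ¬ ℓ ∣ N ρ := by
    intro hd
    apply hℓS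
    rw [Finset.mem_biUnion]
    exact ⟨ρ, Finset.mem_univ _, Nat.mem_primeFactors.mpr ⟨hℓ, hd, hN0⟩⟩
  have hcop : Nat.Coprime ℓ (N ρ) := (Nat.Prime.coprime_iff_not_dvd hℓ).mpr hnd
  have hcop' : IsCoprime (ℓ : ℤ) (N ρ : ℤ) := Nat.isCoprime_iff_coprime.mpr hcop
  obtain ⟨a, b, hab⟩ := hcop'
  have h1 : ((a : 𝓞 M)) * (ℓ : 𝓞 M) + (b : 𝓞 M) * (N ρ : 𝓞 M) = 1 := by
    have := congrArg (fun z : ℤ => (z : 𝓞 M)) hab
    push_cast at this
    exact this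
  have h2 : (1 : 𝓞 M) ∈ Q := by
    rw [← h1]
    exact Ideal.add_mem Q (Ideal.mul_mem_left Q _ hℓQ) (Ideal.mul_mem_left Q _ hNQ)
  exact hQ.ne_top ((Ideal.eq_top_iff_one Q).mpr h2)

/-- **(C), combined form**: outside a finite set of rational primes every finite-level Frobenius
lifts to a Frobenius in the prelude's sense. -/
theorem exists_finset_frobenius_lift [FiniteDimensional ℚ M] :
    ∃ S₀ : Finset ℕ, ∀ ℓ : ℕ, ℓ.Prime → ℓ ∉ S₀ → ∀ Q : Ideal (𝓞 M), Q.IsPrime →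
      (ℓ : 𝓞 M) ∈ Q → ∀ τ : M ≃ₐ[ℚ] M, (∀ x : 𝓞 M, τ • x - x ^ ℓ ∈ Q) →
      ∃ (A : ValuationSubring Qb) (σ : Qb ≃ₐ[ℚ] Qb),
        A.LiesOverPrime ℓ ∧ A.IsFrobeniusAt σ ℓ ∧ primeBelow M A = Q ∧ ∀ x : M, σ x = τ x := by
  obtain ⟨S₀, hS₀⟩ := exists_finset_frob_unique (M := M)
  refine ⟨S₀, ?_⟩
  intro ℓ hℓ hℓS Q hQ hℓQ τ hτ
  haveI := hQ
  exact exists_frobenius_lift ℓ hℓ Q hℓQ τ hτ (hS₀ ℓ hℓ hℓS Q hQ hℓQ)

end Fermat.Agent.S42x.Dens.H27
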