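import Fermat.Agent.S42x.Dens.H16_DensOf
import Fermat.Agent.S42x.Dens.H27_Transfer
import Fermat.Agent.S42x.Asm.Defs

/-!
# W7 / (DENS) (helper16): Frobenius' density theorem in the prelude spelling, hypothesis-free

* `stTransfer : StTransfer` = helper27's `exists_valuationSubring_over` (C);
* `dens` : every element of `Gal(ℚ̄/ℚ)` agrees on a given number field `K ⊆ ℚ̄` with a power of a
  Frobenius element at a valuation subring over a prime `ℓ` outside a given finite set;
* `stDens : Asm.StDens` (verbatim `S42x/Asm/Defs.lean`).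

Chain: `S14x/LFN` (two-sided prime zeta bounds) ⟹ (A1), (A2) (helper27, `H27_Density`)
⟹ (B) inert primes of degree one in cyclic extensions (`H16_Inert`) ⟹ (NF) (`H16_NF`)
⟹ + (C) (`H27_Transfer`) ⟹ `dens`.
-/

set_option autoImplicit false

noncomputable section

namespace Fermat.Agent.S42x.Dens.H16

/-- **(C)**, hypothesis-free (helper27). -/
theorem stTransfer : StTransfer := fun K' _ _ 𝔓 _ ℓ hℓ h =>
  H27.exists_valuationSubring_over K' 𝔓 ℓ hℓ h

/-- **(DENS)** Frobenius' density theorem (weak form) in the prelude spelling. -/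
theorem dens (K : IntermediateField ℚ (AlgebraicClosure ℚ)) [FiniteDimensional ℚ K]
    (S : Finset ℕ) (g : AlgebraicClosure ℚ ≃ₐ[ℚ] AlgebraicClosure ℚ) :
    ∃ (ℓ : ℕ) (A : ValuationSubring (AlgebraicClosure ℚ))
      (σ : AlgebraicClosure ℚ ≃ₐ[ℚ] AlgebraicClosure ℚ) (k : ℕ),
      ℓ.Prime ∧ ℓ ∉ S ∧ A.LiesOverPrime ℓ ∧ A.IsFrobeniusAt σ ℓ ∧ ∀ x ∈ K, g x = (σ ^ k) x :=
  dens_of stTransfer K S g

/-- **(DENS)** = `Asm.StDens`, verbatim. -/
theorem stDens : Fermat.Agent.S42x.Asm.StDens := fun K hK S h =>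
  haveI := hK
  dens K S h

end Fermat.Agent.S42x.Dens.H16
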