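import Mathlib
import Fermat.Agent.S14x.LFN.Defs

/-!
# W7 / (DENS) (helper16): vocabulary

`HasInvDensity E 𝒜 d`: the set `𝒜` of primes of the number field `E` has two-sided logarithmic
density `1 / d`, in the finite-sum form of `S14x/LFN` (`nrm E s P = N(P)^(-s)`): as `s → 1+`,
every finite subset `X ⊆ 𝒜` has `d * ∑_{P ∈ X} N(P)^(-s) ≤ log (1/(s-1)) + C`, and some finite
subset `X ⊆ 𝒜` has `log (1/(s-1)) - C ≤ d * ∑_{P ∈ X} N(P)^(-s)`.

Only definitions in this file.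
-/

set_option autoImplicit false

noncomputable section

open NumberField IsDedekindDomain Filter Topology

namespace Fermat.Agent.S42x.Dens

/-- Two-sided logarithmic density `1 / d` of a set of primes (finite sums only). -/
def HasInvDensity (E : Type*) [Field E] [NumberField E]
    (𝒜 : Set (HeightOneSpectrum (𝓞 E))) (d : ℕ) : Prop :=
  ∃ C : ℝ, ∀ᶠ s in 𝓝[>] (1 : ℝ),
    (∀ X : Finset (HeightOneSpectrum (𝓞 E)), (∀ P ∈ X, P ∈ 𝒜) →
      (d : ℝ) * ∑ P ∈ X, Fermat.Agent.S14x.LFN.nrm E s P.asIdeal ≤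
        Real.log (1 / (s - 1)) + C) ∧
    (∃ X : Finset (HeightOneSpectrum (𝓞 E)), (∀ P ∈ X, P ∈ 𝒜) ∧
      Real.log (1 / (s - 1)) - C ≤
        (d : ℝ) * ∑ P ∈ X, Fermat.Agent.S14x.LFN.nrm E s P.asIdeal)

end Fermat.Agent.S42x.Dens
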