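import Mathlib
import Fermat.Agent.S42x.Dens.H16_Defs
import Fermat.Agent.S14x.LFN.H6_Ram
import Fermat.Agent.S14x.LFN.H11_AdD
import Fermat.Agent.S14x.Art.H28_Frob

/-!
# W7 / (DENS) (helper16): inert primes of degree one in a cyclic extension

`E`, `M` number fields, `M / E` Galois with cyclic group (generator `g₀`).  From the two analytic
statements `StSplit` (A1) and `StAvoid` (A2) (helper27) we deduce `exists_inert_of`: outside any
finite set `T` of primes of `E` there is a prime `P` of absolute degree one all of whose primes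
`𝔓` in `M` have residue degree `[M : E]`.

Route: for `d ∣ n = [M : E]` let `F_d` be the fixed field of `⟨g₀ ^ d⟩` (degree `d` over `E`).
A degree-one unramified prime `P` of `E` has `f(𝔓 | P) ∣ n / d` iff it splits completely in
`F_d` (Frobenius of order `f`, `Art.H28.orderOf_frob`), so these sets have density `1 / d`;
inclusion-exclusion over the prime divisors of `n` gives a prime with `f = n`.
-/

set_option autoImplicit false
set_option linter.unusedSectionVars false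
set_option linter.unusedVariables false
set_option linter.style.haveILetI false

open NumberField IsDedekindDomain Filter Topology
open scoped Pointwise

noncomputable section

namespace Fermat.Agent.S42x.Dens.H16

open Fermat.Agent.S14x.LFN Fermat.Agent.S14x

/-! ### The two analytic inputs (helper27), as Props -/

/-- **(A1)** a set of primes of `E` which split completely in `F` and which contains the primes
below almost all degree-one primes of `F` has density `1 / [F : E]`. -/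
def StSplit : Prop :=
  ∀ (E F : Type) [Field E] [NumberField E] [Field F] [NumberField F] [Algebra E F]
    (𝒜 : Set (HeightOneSpectrum (𝓞 E))),
    (∀ P ∈ 𝒜, ∃ S : Finset (HeightOneSpectrum (𝓞 F)), S.card = Module.finrank E F ∧
      ∀ 𝔭 ∈ S, 𝔭.asIdeal.under (𝓞 E) = P.asIdeal ∧
        Ideal.absNorm 𝔭.asIdeal = Ideal.absNorm P.asIdeal) →
    ∀ T₁ : Finset (HeightOneSpectrum (𝓞 F)),
    (∀ 𝔭 : HeightOneSpectrum (𝓞 F), 𝔭 ∈ degOne F → 𝔭 ∉ T₁ →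
      ∃ P ∈ 𝒜, 𝔭.asIdeal.under (𝓞 E) = P.asIdeal) →
    HasInvDensity E 𝒜 (Module.finrank E F)

/-- **(A2)** inclusion-exclusion: if all intersections of the sets `ℬ r` (inside `𝒰`) have
density `1 / ∏ r`, some element of `𝒰` avoids all `ℬ r`. -/
def StAvoid : Prop :=
  ∀ (E : Type) [Field E] [NumberField E] (R : Finset ℕ), (∀ r ∈ R, 2 ≤ r) →
    ∀ (𝒰 : Set (HeightOneSpectrum (𝓞 E))) (ℬ : ℕ → Set (HeightOneSpectrum (𝓞 E))),
    (∀ I ⊆ R, HasInvDensity E {P | P ∈ 𝒰 ∧ ∀ r ∈ I, P ∈ ℬ r} (∏ r ∈ I, r)) →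
    ∃ P ∈ 𝒰, ∀ r ∈ R, P ∉ ℬ r

/-! ### Cyclic groups -/

theorem mem_zpowers_pow_of_pow_eq_one {G : Type*} [Group G] [Finite G] (g₀ : G)
    (hg₀ : ∀ x : G, x ∈ Subgroup.zpowers g₀) {d : ℕ} (hd : d ∣ Nat.card G) (φ : G)
    (hφ : φ ^ (Nat.card G / d) = 1) : φ ∈ Subgroup.zpowers (g₀ ^ d) := by
  have hn : orderOf g₀ = Nat.card G := orderOf_eq_card_of_forall_mem_zpowers hg₀
  have hnpos : 0 < Nat.card G := Nat.card_pos
  obtain ⟨k, hk⟩ := (mem_powers_iff_mem_zpowers.mpr (hg₀ φ))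
  have hk' : g₀ ^ k = φ := hk
  subst hk'
  have h1 : g₀ ^ (k * (Nat.card G / d)) = 1 := by rw [pow_mul]; exact hφ
  have h2 : Nat.card G ∣ k * (Nat.card G / d) := by
    have := orderOf_dvd_of_pow_eq_one h1
    rwa [hn] at this
  obtain ⟨m, hm⟩ := hd
  have hdpos : 0 < d := by
    rcases Nat.eq_zero_or_pos d with h | h
    · rw [h, zero_mul] at hm; omega
    · exact h
  have hmpos : 0 < m := by
    rcases Nat.eq_zero_or_pos m with h | h
    · rw [h, mul_zero] at hm; omega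
    · exact h
  have h3 : Nat.card G / d = m := by rw [hm]; exact Nat.mul_div_cancel_left m hdpos
  rw [h3, hm, mul_comm k m] at h2
  have h4 : d ∣ k := (Nat.mul_dvd_mul_iff_left hmpos).mp (by rwa [mul_comm d m] at h2)
  obtain ⟨j, rfl⟩ := h4
  rw [pow_mul]
  exact Subgroup.npow_mem_zpowers _ j

theorem card_zpowers_pow {G : Type*} [Group G] [Finite G] (g₀ : G)
    (hg₀ : ∀ x : G, x ∈ Subgroup.zpowers g₀) {d : ℕ} (hd : d ∣ Nat.card G) :
    Nat.card (Subgroup.zpowers (g₀ ^ d)) = Nat.card G / d := by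
  have hn : orderOf g₀ = Nat.card G := orderOf_eq_card_of_forall_mem_zpowers hg₀
  have hnpos : 0 < Nat.card G := Nat.card_pos
  rw [Nat.card_zpowers, orderOf_pow' , hn, Nat.gcd_eq_right hd]
  rintro rfl
  rw [zero_dvd_iff] at hd
  omega


/-! ### Arithmetic -/

theorem prod_dvd_of_subset_primeFactors {n : ℕ} {I : Finset ℕ} (hI : I ⊆ n.primeFactors) :
    ∏ r ∈ I, r ∣ n := by
  apply Finset.prod_primes_dvd
  · intro r hr
    exact (Nat.prime_of_mem_primeFactors (hI hr)).prime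
  · intro r hr
    exact Nat.dvd_of_mem_primeFactors (hI hr)

theorem dvd_div_iff_mul_dvd' {f n r : ℕ} (hr : r ∣ n) (hr0 : 0 < r) : f ∣ n / r ↔ f * r ∣ n := by
  obtain ⟨m, rfl⟩ := hr
  rw [Nat.mul_div_cancel_left m hr0, mul_comm f r]
  exact (Nat.mul_dvd_mul_iff_left hr0).symm

theorem dvd_div_prod {f n : ℕ} (hn : 0 < n) (hf : f ∣ n) {I : Finset ℕ}
    (hI : I ⊆ n.primeFactors) (h : ∀ r ∈ I, f ∣ n / r) : f ∣ n / ∏ r ∈ I, r := by
  obtain ⟨m, rfl⟩ := hf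
  have hf0 : 0 < f := Nat.pos_of_mul_pos_right hn
  have hd : ∏ r ∈ I, r ∣ m := by
    apply Finset.prod_primes_dvd
    · intro r hr
      exact (Nat.prime_of_mem_primeFactors (hI hr)).prime
    · intro r hr
      have hrp := Nat.prime_of_mem_primeFactors (hI hr)
      have h1 := (dvd_div_iff_mul_dvd' (Nat.dvd_of_mem_primeFactors (hI hr)) hrp.pos).mp (h r hr)
      exact (Nat.mul_dvd_mul_iff_left hf0).mp h1
  have hpos : 0 < ∏ r ∈ I, r :=
    Finset.prod_pos fun r hr => (Nat.prime_of_mem_primeFactors (hI hr)).pos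
  rw [dvd_div_iff_mul_dvd' (prod_dvd_of_subset_primeFactors hI) hpos]
  exact Nat.mul_dvd_mul_left f hd

theorem div_dvd_div_of_dvd {n d r : ℕ} (hd : d ∣ n) (hr : r ∣ d) (hn : 0 < n) : n / d ∣ n / r := by
  obtain ⟨a, rfl⟩ := hd
  obtain ⟨b, rfl⟩ := hr
  have hrb : 0 < r * b := Nat.pos_of_mul_pos_right hn
  have hr0 : 0 < r := Nat.pos_of_mul_pos_right hrb
  rw [Nat.mul_div_cancel_left a hrb, mul_assoc, Nat.mul_div_cancel_left _ hr0]
  exact Dvd.intro_left b rfl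

theorem eq_of_forall_not_dvd_div {f n : ℕ} (hn : 0 < n) (hf : f ∣ n)
    (h : ∀ r ∈ n.primeFactors, ¬ f ∣ n / r) : f = n := by
  obtain ⟨m, rfl⟩ := hf
  have hf0 : 0 < f := Nat.pos_of_mul_pos_right hn
  have hm0 : 0 < m := Nat.pos_of_mul_pos_left hn
  by_contra hne
  have hm1 : m ≠ 1 := by
    rintro rfl
    exact hne (mul_one f).symm
  obtain ⟨r, hr, hrm⟩ := Nat.exists_prime_and_dvd hm1
  have hrn : r ∣ f * m := Dvd.dvd.mul_left hrm f
  have hmem : r ∈ (f * m).primeFactors := Nat.mem_primeFactors.mpr ⟨hr, hrn, hn.ne'⟩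
  apply h r hmem
  rw [dvd_div_iff_mul_dvd' hrn hr.pos]
  exact Nat.mul_dvd_mul_left f hrm


section Galois

variable (E M : Type) [Field E] [NumberField E] [Field M] [NumberField M] [Algebra E M]
  [IsGalois E M]

/-- Outside `ramSet`, every prime above `P` is unramified. -/
theorem isUnramifiedAt_of_notMem_ramSet (P : HeightOneSpectrum (𝓞 E)) (hP : P ∉ H6.ramSet E M)
    (𝔓 : Ideal (𝓞 M)) [h𝔓 : 𝔓.IsPrime] (hover : 𝔓.under (𝓞 E) = P.asIdeal) :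
    Algebra.IsUnramifiedAt (𝓞 E) 𝔓 := by
  have hq0 : 𝔓 ≠ ⊥ := by
    intro h0
    apply P.ne_bot
    rw [← hover, h0]
    exact Ideal.under_bot (𝓞 E) (𝓞 M)
  have h1 : ¬ 𝔓 ∣ differentIdeal (𝓞 E) (𝓞 M) := by
    intro hd
    apply hP
    have := H6.mem_ramSet_of_dvd E M ⟨𝔓, h𝔓, hq0⟩ hd
    have h2 : H6.below E M ⟨𝔓, h𝔓, hq0⟩ = P := HeightOneSpectrum.ext hover
    rwa [h2] at this
  exact not_dvd_differentIdeal_iff.mp h1

/-- A prime of `M` above a height-one prime of `E` is nonzero. -/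
theorem ne_bot_of_under_eq (P : HeightOneSpectrum (𝓞 E)) (𝔓 : Ideal (𝓞 M))
    (hover : 𝔓.under (𝓞 E) = P.asIdeal) : 𝔓 ≠ ⊥ := by
  intro h0
  apply P.ne_bot
  rw [← hover, h0]
  exact Ideal.under_bot (𝓞 E) (𝓞 M)

/-- There is a prime of `M` above every prime of `E`. -/
theorem exists_prime_over (P : HeightOneSpectrum (𝓞 E)) :
    ∃ 𝔓 : Ideal (𝓞 M), 𝔓.IsPrime ∧ 𝔓.under (𝓞 E) = P.asIdeal := by
  obtain ⟨⟨Q, hQ⟩⟩ := (inferInstance : Nonempty (P.asIdeal.primesOver (𝓞 M)))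
  exact ⟨Q, hQ.1, hQ.2.over.symm⟩

/-- All primes of `M` above `P` have the same residue degree (`M / E` Galois). -/
theorem inertiaDeg_eq_of_under_eq (𝔓 𝔓' : Ideal (𝓞 M)) [𝔓.IsPrime] [𝔓'.IsPrime]
    (h : 𝔓.under (𝓞 E) = 𝔓'.under (𝓞 E)) :
    𝔓.inertiaDeg (𝓞 E) = 𝔓'.inertiaDeg (𝓞 E) := by
  haveI : 𝔓.LiesOver (𝔓.under (𝓞 E)) := ⟨rfl⟩
  haveI : 𝔓'.LiesOver (𝔓.under (𝓞 E)) := ⟨h⟩
  exact Ideal.inertiaDeg_eq_of_isGaloisGroup (𝔓.under (𝓞 E)) 𝔓 𝔓' Gal(M/E)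

/-- The residue degree divides the degree (`M / E` Galois). -/
theorem inertiaDeg_dvd_finrank (𝔓 : Ideal (𝓞 M)) [𝔓.IsPrime] (h0 : 𝔓 ≠ ⊥) :
    𝔓.inertiaDeg (𝓞 E) ∣ Module.finrank E M := by
  haveI : 𝔓.LiesOver (𝔓.under (𝓞 E)) := ⟨rfl⟩
  have h := Ideal.ncard_primesOver_mul_ramificationIdxIn_mul_inertiaDegIn (𝔓.under (𝓞 E))
    (𝓞 M) Gal(M/E)
  rw [Ideal.inertiaDegIn_eq_inertiaDeg (𝔓.under (𝓞 E)) 𝔓 Gal(M/E),
    IsGalois.card_aut_eq_finrank] at h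
  exact ⟨((𝔓.under (𝓞 E)).primesOver (𝓞 M)).ncard * (𝔓.under (𝓞 E)).ramificationIdxIn (𝓞 M),
    by rw [← h]; ring⟩

end Galois

section Above

variable (E F : Type) [Field E] [NumberField E] [Field F] [NumberField F] [Algebra E F]

/-- The primes of `F` above a finite set of primes of `E` form a finite set. -/
theorem exists_finset_above (T : Finset (HeightOneSpectrum (𝓞 E))) :
    ∃ T₁ : Finset (HeightOneSpectrum (𝓞 F)), ∀ 𝔭 : HeightOneSpectrum (𝓞 F), 𝔭 ∉ T₁ →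
      H6.below E F 𝔭 ∉ T := by
  classical
  set I : Ideal (𝓞 F) := ∏ P ∈ T, P.asIdeal.map (algebraMap (𝓞 E) (𝓞 F)) with hI
  have hI0 : I ≠ ⊥ := by
    rw [hI, Ne, ← Ideal.zero_eq_bot, Finset.prod_eq_zero_iff]
    rintro ⟨P, -, hP⟩
    rw [Ideal.zero_eq_bot, Ideal.map_eq_bot_iff_of_injective
      (RingOfIntegers.algebraMap.injective E F)] at hP
    exact P.ne_bot hP
  refine ⟨(Ideal.finite_factors hI0).toFinset, fun 𝔭 h𝔭 hmem => h𝔭 ?_⟩
  rw [Set.Finite.mem_toFinset, Set.mem_ofPred_eq]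
  refine dvd_trans ?_ (Finset.dvd_prod_of_mem _ hmem)
  rw [Ideal.dvd_iff_le, Ideal.map_le_iff_le_comap]
  exact le_of_eq rfl

end Above

section Tower

variable (E M : Type) [Field E] [NumberField E] [Field M] [NumberField M] [Algebra E M]
  [IsGalois E M]

/-- (lo): if a prime of `E` has a prime of degree one of the intermediate field `F` above it,
its residue degree in `M` divides `[M : F]`. -/
theorem inertiaDeg_dvd_of_degOne (F : IntermediateField E M) (𝔭 : HeightOneSpectrum (𝓞 F))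
    (h𝔭 : 𝔭 ∈ degOne F) (𝔓 : Ideal (𝓞 M)) [𝔓.IsPrime]
    (h : 𝔓.under (𝓞 E) = 𝔭.asIdeal.under (𝓞 E)) :
    𝔓.inertiaDeg (𝓞 E) ∣ Module.finrank F M := by
  obtain ⟨𝔓', h𝔓', hover⟩ := exists_prime_over F M 𝔭
  haveI := h𝔓'
  have h1 : 𝔓'.under (𝓞 E) = 𝔭.asIdeal.under (𝓞 E) := by rw [← hover, Ideal.under_under]
  rw [inertiaDeg_eq_of_under_eq E M 𝔓 𝔓' (h.trans h1.symm)]
  haveI : 𝔓'.LiesOver 𝔭.asIdeal := ⟨hover.symm⟩
  rw [Ideal.inertiaDeg_tower (R := 𝓞 E) 𝔭.asIdeal 𝔓',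
    H6.inertiaDeg_eq_one_of_degOne E F 𝔭 h𝔭, one_mul]
  exact inertiaDeg_dvd_finrank F M 𝔓' (ne_bot_of_under_eq F M 𝔭 𝔓' hover)

/-- (up): if a Frobenius at `𝔓` over `E` fixes the intermediate field `F`, the prime of `F`
below `𝔓` has the same norm as the prime of `E` below it. -/
theorem absNorm_eq_of_frob_fix (F : IntermediateField E M) (P : HeightOneSpectrum (𝓞 E))
    (𝔭 : HeightOneSpectrum (𝓞 F)) (h𝔭 : 𝔭.asIdeal.under (𝓞 E) = P.asIdeal)
    (𝔓 : Ideal (𝓞 M)) [𝔓.IsPrime] (h𝔓 : 𝔓.under (𝓞 F) = 𝔭.asIdeal) (φ : Gal(M/E))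
    (hφ : IsArithFrobAt (𝓞 E) φ 𝔓) (hfix : ∀ x : F, φ (x : M) = x) :
    Ideal.absNorm 𝔭.asIdeal = Ideal.absNorm P.asIdeal := by
  apply H11.absNorm_eq_of_forall_pow_sub E F P 𝔭 h𝔭
  intro x
  have h1 := hφ (algebraMap (𝓞 F) (𝓞 M) x)
  have h2 : φ • (algebraMap (𝓞 F) (𝓞 M) x) = algebraMap (𝓞 F) (𝓞 M) x := by
    apply RingOfIntegers.ext
    exact hfix (x : F)
  have h3 : 𝔓.under (𝓞 E) = P.asIdeal := by rw [← h𝔭, ← h𝔓, Ideal.under_under]
  rw [h3] at h1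
  have hcard : Nat.card (𝓞 E ⧸ P.asIdeal) = Ideal.absNorm P.asIdeal := rfl
  rw [hcard] at h1
  have h4 : algebraMap (𝓞 F) (𝓞 M) (x - x ^ Ideal.absNorm P.asIdeal) ∈ 𝔓 := by
    rw [map_sub, map_pow]
    have : (MulSemiringAction.toAlgHom (𝓞 E) (𝓞 M) φ) (algebraMap (𝓞 F) (𝓞 M) x) =
        φ • (algebraMap (𝓞 F) (𝓞 M) x) := rfl
    rw [this, h2] at h1
    exact h1
  rw [← h𝔓]
  exact h4

end Tower


section Main

variable (E M : Type) [Field E] [NumberField E] [Field M] [NumberField M] [Algebra E M]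
  [IsGalois E M]

/-- The fixed field of `⟨g₀ ^ d⟩`. -/
def fixd (g₀ : Gal(M/E)) (d : ℕ) : IntermediateField E M :=
  IntermediateField.fixedField (Subgroup.zpowers (g₀ ^ d))

theorem finrank_fixd_top (g₀ : Gal(M/E)) (hg₀ : ∀ x : Gal(M/E), x ∈ Subgroup.zpowers g₀)
    {d : ℕ} (hd : d ∣ Module.finrank E M) :
    Module.finrank (fixd E M g₀ d) M = Module.finrank E M / d := by
  rw [fixd, IntermediateField.finrank_fixedField_eq_card, card_zpowers_pow g₀ hg₀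
    (by rwa [IsGalois.card_aut_eq_finrank]), IsGalois.card_aut_eq_finrank]

theorem finrank_fixd (g₀ : Gal(M/E)) (hg₀ : ∀ x : Gal(M/E), x ∈ Subgroup.zpowers g₀)
    {d : ℕ} (hd : d ∣ Module.finrank E M) :
    Module.finrank E (fixd E M g₀ d) = d := by
  have hn : 0 < Module.finrank E M := Module.finrank_pos
  have h1 := Module.finrank_mul_finrank E (fixd E M g₀ d) M
  rw [finrank_fixd_top E M g₀ hg₀ hd] at h1
  obtain ⟨m, hm⟩ := hd
  have hd0 : 0 < d := by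
    rcases Nat.eq_zero_or_pos d with h | h
    · rw [h, zero_mul] at hm; omega
    · exact h
  have hm0 : 0 < m := by
    rcases Nat.eq_zero_or_pos m with h | h
    · rw [h, mul_zero] at hm; omega
    · exact h
  rw [hm, Nat.mul_div_cancel_left m hd0] at h1
  exact Nat.eq_of_mul_eq_mul_right hm0 h1

/-- (up), assembled: a degree-one prime `P` outside `ramSet` whose residue degree in `M`
divides `n / d` has all its primes in `F_d` of the same norm. -/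
theorem absNorm_eq_of_inertiaDeg_dvd (g₀ : Gal(M/E))
    (hg₀ : ∀ x : Gal(M/E), x ∈ Subgroup.zpowers g₀) {d : ℕ} (hd : d ∣ Module.finrank E M)
    (P : HeightOneSpectrum (𝓞 E)) (hP : P ∉ H6.ramSet E M)
    (hf : ∀ 𝔓 : Ideal (𝓞 M), 𝔓.IsPrime → 𝔓.under (𝓞 E) = P.asIdeal →
      𝔓.inertiaDeg (𝓞 E) ∣ Module.finrank E M / d)
    (𝔭 : HeightOneSpectrum (𝓞 (fixd E M g₀ d))) (h𝔭 : 𝔭.asIdeal.under (𝓞 E) = P.asIdeal) :
    Ideal.absNorm 𝔭.asIdeal = Ideal.absNorm P.asIdeal := by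
  obtain ⟨𝔓, h𝔓, hover⟩ := exists_prime_over (fixd E M g₀ d) M 𝔭
  haveI := h𝔓
  have hPover : 𝔓.under (𝓞 E) = P.asIdeal := by rw [← h𝔭, ← hover, Ideal.under_under]
  haveI : 𝔓.LiesOver P.asIdeal := ⟨hPover.symm⟩
  haveI : Algebra.IsUnramifiedAt (𝓞 E) 𝔓 := isUnramifiedAt_of_notMem_ramSet E M P hP 𝔓 hPover
  haveI : Finite (𝓞 M ⧸ 𝔓) :=
    Ideal.finiteQuotientOfFreeOfNeBot 𝔓 (ne_bot_of_under_eq E M P 𝔓 hPover)
  obtain ⟨φ, hφ⟩ := IsArithFrobAt.exists_of_isInvariant (𝓞 E) Gal(M/E) 𝔓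
  have hord : orderOf φ = 𝔓.inertiaDeg (𝓞 E) := Art.H28.orderOf_frob P 𝔓 hφ
  have hpow : φ ^ (Nat.card Gal(M/E) / d) = 1 := by
    rw [IsGalois.card_aut_eq_finrank]
    apply orderOf_dvd_iff_pow_eq_one.mp
    rw [hord]
    exact hf 𝔓 h𝔓 hPover
  have hmem : φ ∈ Subgroup.zpowers (g₀ ^ d) :=
    mem_zpowers_pow_of_pow_eq_one g₀ hg₀ (by rwa [IsGalois.card_aut_eq_finrank]) φ hpow
  refine absNorm_eq_of_frob_fix E M (fixd E M g₀ d) P 𝔭 h𝔭 𝔓 hover φ hφ ?_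
  intro x
  have hx : (x : M) ∈ IntermediateField.fixedField (Subgroup.zpowers (g₀ ^ d)) := x.2
  rw [IntermediateField.mem_fixedField_iff] at hx
  exact hx φ hmem

/-- **(B)** inert primes of degree one, from (A1) and (A2). -/
theorem exists_inert_of (hA1 : StSplit) (hA2 : StAvoid) (g₀ : Gal(M/E))
    (hg₀ : ∀ x : Gal(M/E), x ∈ Subgroup.zpowers g₀) (T : Finset (HeightOneSpectrum (𝓞 E))) :
    ∃ P : HeightOneSpectrum (𝓞 E), P ∉ T ∧ P ∈ degOne E ∧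
      ∀ 𝔓 : Ideal (𝓞 M), 𝔓.IsPrime → 𝔓.under (𝓞 E) = P.asIdeal →
        𝔓.inertiaDeg (𝓞 E) = Module.finrank E M := by
  classical
  set n := Module.finrank E M with hn
  have hn0 : 0 < n := Module.finrank_pos
  set R := n.primeFactors with hR
  -- exceptional sets of [RAM] for the fields `F_d`
  have hram : ∀ d : ℕ, ∃ T₀ : Finset (HeightOneSpectrum (𝓞 E)),
      ∀ P : HeightOneSpectrum (𝓞 E), P ∉ T₀ →
      (∀ 𝔓 : HeightOneSpectrum (𝓞 (fixd E M g₀ d)), 𝔓.asIdeal.under (𝓞 E) = P.asIdeal →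
        Ideal.absNorm 𝔓.asIdeal = Ideal.absNorm P.asIdeal) →
      ∃ S : Finset (HeightOneSpectrum (𝓞 (fixd E M g₀ d))),
        S.card = Module.finrank E (fixd E M g₀ d) ∧
        ∀ 𝔓 ∈ S, 𝔓.asIdeal.under (𝓞 E) = P.asIdeal := fun d => H6.stRAM E (fixd E M g₀ d)
  choose T0 hT0 using hram
  set Tbig : Finset (HeightOneSpectrum (𝓞 E)) :=
    T ∪ H6.ramSet E M ∪ R.powerset.biUnion (fun I => T0 (∏ r ∈ I, r)) with hTbig
  set 𝒰 : Set (HeightOneSpectrum (𝓞 E)) := {P | P ∈ degOne E ∧ P ∉ Tbig} with h𝒰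
  set ℬ : ℕ → Set (HeightOneSpectrum (𝓞 E)) := fun r =>
    {P | ∀ 𝔓 : Ideal (𝓞 M), 𝔓.IsPrime → 𝔓.under (𝓞 E) = P.asIdeal →
      𝔓.inertiaDeg (𝓞 E) ∣ n / r} with hℬ
  have hkey : ∀ I ⊆ R, HasInvDensity E {P | P ∈ 𝒰 ∧ ∀ r ∈ I, P ∈ ℬ r} (∏ r ∈ I, r) := by
    intro I hI
    set d := ∏ r ∈ I, r with hd
    have hdn : d ∣ n := prod_dvd_of_subset_primeFactors hI
    have hdeg : Module.finrank E (fixd E M g₀ d) = d := finrank_fixd E M g₀ hg₀ hdn
    have hdegtop : Module.finrank (fixd E M g₀ d) M = n / d := finrank_fixd_top E M g₀ hg₀ hdn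
    obtain ⟨T₁, hT₁⟩ := exists_finset_above E (fixd E M g₀ d) Tbig
    have hnorm : ∀ P : HeightOneSpectrum (𝓞 E), P ∈ 𝒰 → (∀ r ∈ I, P ∈ ℬ r) →
        ∀ 𝔭 : HeightOneSpectrum (𝓞 (fixd E M g₀ d)), 𝔭.asIdeal.under (𝓞 E) = P.asIdeal →
        Ideal.absNorm 𝔭.asIdeal = Ideal.absNorm P.asIdeal := by
      intro P hPU hPB 𝔭 h𝔭
      have hPram : P ∉ H6.ramSet E M := fun h => hPU.2 (by
        rw [hTbig]; exact Finset.mem_union_left _ (Finset.mem_union_right _ h))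
      refine absNorm_eq_of_inertiaDeg_dvd E M g₀ hg₀ hdn P hPram ?_ 𝔭 h𝔭
      intro 𝔓 h𝔓 hover
      haveI := h𝔓
      refine dvd_div_prod hn0 (inertiaDeg_dvd_finrank E M 𝔓 (ne_bot_of_under_eq E M P 𝔓 hover))
        hI fun r hr => hPB r hr 𝔓 h𝔓 hover
    have h := hA1 E (fixd E M g₀ d) {P | P ∈ 𝒰 ∧ ∀ r ∈ I, P ∈ ℬ r} ?_ T₁ ?_
    · rwa [hdeg] at h
    · -- (up)
      rintro P ⟨hPU, hPB⟩
      have hPT0 : P ∉ T0 d := fun h => hPU.2 (by
        rw [hTbig]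
        exact Finset.mem_union_right _ (Finset.mem_biUnion.mpr
          ⟨I, Finset.mem_powerset.mpr hI, h⟩))
      obtain ⟨S, hScard, hS⟩ := hT0 d P hPT0 (hnorm P hPU hPB)
      exact ⟨S, hScard, fun 𝔭 h𝔭 => ⟨hS 𝔭 h𝔭, hnorm P hPU hPB 𝔭 (hS 𝔭 h𝔭)⟩⟩
    · -- (lo)
      intro 𝔭 h𝔭 h𝔭T
      obtain ⟨P, hP1, hPover, -, -⟩ := (H6.stNRM E (fixd E M g₀ d)).1 𝔭 h𝔭
      have hPb : H6.below E (fixd E M g₀ d) 𝔭 = P := HeightOneSpectrum.ext hPover
      refine ⟨P, ⟨⟨hP1, ?_⟩, ?_⟩, hPover⟩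
      · rw [← hPb]
        exact hT₁ 𝔭 h𝔭T
      · intro r hr 𝔓 h𝔓 hover
        haveI := h𝔓
        have h1 := inertiaDeg_dvd_of_degOne E M (fixd E M g₀ d) 𝔭 h𝔭 𝔓 (hover.trans hPover.symm)
        rw [hdegtop] at h1
        exact h1.trans (div_dvd_div_of_dvd hdn (Finset.dvd_prod_of_mem _ hr) hn0)
  obtain ⟨P, hPU, hPB⟩ := hA2 E R
    (fun r hr => (Nat.prime_of_mem_primeFactors hr).two_le) 𝒰 ℬ hkey
  refine ⟨P, fun h => hPU.2 (by
    rw [hTbig]; exact Finset.mem_union_left _ (Finset.mem_union_left _ h)), hPU.1, ?_⟩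
  intro 𝔓 h𝔓 hover
  haveI := h𝔓
  refine eq_of_forall_not_dvd_div hn0
    (inertiaDeg_dvd_finrank E M 𝔓 (ne_bot_of_under_eq E M P 𝔓 hover)) ?_
  intro r hr hdvd
  apply hPB r hr
  intro 𝔓' h𝔓' hover'
  haveI := h𝔓'
  rw [inertiaDeg_eq_of_under_eq E M 𝔓' 𝔓 (hover'.trans hover.symm)]
  exact hdvd

end Main

end Fermat.Agent.S42x.Dens.H16
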