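import Mathlib
import Fermat.Agent.S14x.LFN.H27_PZFinal
import Fermat.Agent.S14x.LFN.H6_Nrm

/-!
# W7 (DENS), analytic half (helper27): primes avoiding finitely many splitting conditions

`E` a number field, `ι` a finite index set, `split i` sets of primes of `E`, and for every
`I ⊆ ι` a number field `L I` over `E` of degree `∏ i ∈ I, d i` (`d i ≥ 2`) such that, outside a
finite set `T₀` and for primes `P` of absolute degree one,

* if `P ∈ split i` for all `i ∈ I` then `P` splits completely in `L I` (`SplitsIn`);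
* if some prime of `L I` above `P` has the same norm (`HasDegOneAbove`) then `P ∈ split i` for
  all `i ∈ I`.

Then outside any finite set there is a prime of `E` of absolute degree one lying in no
`split i` (`dens_avoid`).  Proof: inclusion-exclusion and the prime zeta bounds
`stPZupper`, `stPZlower` for the fields `L I`:
`∑_{P ∈ B, P ∉ ⋃ split i} N(P)^(-s) ≥ ∏ (1 - 1 / d i) · log (1/(s-1)) - C`.

For a cyclic extension `K'/E` of degree `n`: `ι :=` the primes dividing `n`, `L I :=` the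
subextension of degree `∏ I`, `split r :=` the primes whose Frobenius lies in the subgroup of
index `r`; the conclusion is a prime whose Frobenius generates the Galois group.
-/

set_option autoImplicit false
set_option linter.unusedSectionVars false

open NumberField IsDedekindDomain Filter Topology

open Fermat.Agent.S14x.LFN

noncomputable section

namespace Fermat.Agent.S42x.Dens.H27

universe u v

section Defs

variable (E : Type u) (L : Type v) [Field E] [NumberField E] [Field L] [NumberField L]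
  [Algebra E L]

/-- `P` splits completely in `L`, counting form: there are `[L : E]` primes of `L` above `P`
with the same absolute norm. -/
def SplitsIn (P : HeightOneSpectrum (𝓞 E)) : Prop :=
  ∃ S : Finset (HeightOneSpectrum (𝓞 L)), S.card = Module.finrank E L ∧
    ∀ Q ∈ S, Q.asIdeal.under (𝓞 E) = P.asIdeal ∧
      Ideal.absNorm Q.asIdeal = Ideal.absNorm P.asIdeal

/-- Some prime of `L` above `P` has the same absolute norm as `P`. -/
def HasDegOneAbove (P : HeightOneSpectrum (𝓞 E)) : Prop :=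
  ∃ Q : HeightOneSpectrum (𝓞 L), Q.asIdeal.under (𝓞 E) = P.asIdeal ∧
    Ideal.absNorm Q.asIdeal = Ideal.absNorm P.asIdeal

variable {E L}

theorem nrm_eq_of_absNorm_eq (s : ℝ) {P : HeightOneSpectrum (𝓞 E)}
    {Q : HeightOneSpectrum (𝓞 L)}
    (h : Ideal.absNorm Q.asIdeal = Ideal.absNorm P.asIdeal) :
    nrm L s Q.asIdeal = nrm E s P.asIdeal := by
  unfold nrm
  rw [h]

variable (E L)

/-- **Upper bound.** -/
theorem upper_one (s Cu : ℝ)
    (hPZ : ∀ T : Finset (HeightOneSpectrum (𝓞 L)),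
      ∑ Q ∈ T, nrm L s Q.asIdeal ≤ Real.log (1 / (s - 1)) + Cu)
    (B : Finset (HeightOneSpectrum (𝓞 E))) (hB : ∀ P ∈ B, SplitsIn E L P) :
    (Module.finrank E L : ℝ) * ∑ P ∈ B, nrm E s P.asIdeal ≤ Real.log (1 / (s - 1)) + Cu := by
  classical
  choose S hS using hB
  let G : HeightOneSpectrum (𝓞 E) → Finset (HeightOneSpectrum (𝓞 L)) := fun P =>
    if h : P ∈ B then S P h else ∅
  have hG : ∀ P (hP : P ∈ B), G P = S P hP := fun P hP => dif_pos hP
  have hdisj : (B : Set (HeightOneSpectrum (𝓞 E))).PairwiseDisjoint G := by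
    intro P hP P' hP' hne
    rw [Function.onFun, Finset.disjoint_left]
    intro Q hQ hQ'
    rw [hG P hP] at hQ
    rw [hG P' hP'] at hQ'
    apply hne
    apply HeightOneSpectrum.ext
    rw [← ((hS P hP).2 Q hQ).1, ← ((hS P' hP').2 Q hQ').1]
  have h := hPZ (B.biUnion G)
  rw [Finset.sum_biUnion hdisj] at h
  have hin : ∀ P ∈ B, ∑ Q ∈ G P, nrm L s Q.asIdeal =
      (Module.finrank E L : ℝ) * nrm E s P.asIdeal := by
    intro P hP
    rw [hG P hP, Finset.sum_congr rfl
      (fun Q hQ => nrm_eq_of_absNorm_eq s ((hS P hP).2 Q hQ).2), Finset.sum_const,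
      (hS P hP).1, nsmul_eq_mul]
  rw [Finset.sum_congr rfl hin, ← Finset.mul_sum] at h
  exact h

/-- **Lower bound.** -/
theorem lower_one (s : ℝ) (hs : 0 ≤ s) (TL : Finset (HeightOneSpectrum (𝓞 L)))
    (hTL : ∀ Q ∈ TL, Q ∈ degOne L)
    (X B : Finset (HeightOneSpectrum (𝓞 E)))
    (hB : ∀ Q ∈ TL, H6.below E L Q ∉ X → H6.below E L Q ∈ B) :
    ∑ Q ∈ TL, nrm L s Q.asIdeal ≤
      (Module.finrank E L : ℝ) * X.card +
        (Module.finrank E L : ℝ) * ∑ P ∈ B, nrm E s P.asIdeal := by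
  classical
  have hnorm : ∀ Q ∈ TL, nrm L s Q.asIdeal = nrm E s (H6.below E L Q).asIdeal := by
    intro Q hQ
    obtain ⟨P, -, hP1, hP2, -⟩ := (H6.stNRM E L).1 Q (hTL Q hQ)
    have : H6.below E L Q = P := HeightOneSpectrum.ext hP1
    rw [this]
    exact nrm_eq_of_absNorm_eq s hP2.symm
  rw [Finset.sum_congr rfl hnorm,
    Finset.sum_comp (fun P : HeightOneSpectrum (𝓞 E) => nrm E s P.asIdeal) (H6.below E L)]
  have hfib : ∀ P ∈ TL.image (H6.below E L),
      ({Q ∈ TL | H6.below E L Q = P} : Finset _).card • nrm E s P.asIdeal ≤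
        (Module.finrank E L : ℝ) * nrm E s P.asIdeal := by
    intro P _
    rw [nsmul_eq_mul]
    refine mul_le_mul_of_nonneg_right ?_ (H27.nrm_nonneg E s _)
    have := H6.card_le_finrank E L P ({Q ∈ TL | H6.below E L Q = P} : Finset _) (by
      intro Q hQ
      have h2 := (Finset.mem_filter.mp hQ).2
      rw [← h2]
      rfl)
    exact_mod_cast this
  refine (Finset.sum_le_sum hfib).trans ?_
  rw [← Finset.mul_sum, ← mul_add]
  refine mul_le_mul_of_nonneg_left ?_ (Nat.cast_nonneg _)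
  have hsub : TL.image (H6.below E L) ⊆ X ∪ B := by
    intro P hP
    obtain ⟨Q, hQ, rfl⟩ := Finset.mem_image.mp hP
    by_cases hX : H6.below E L Q ∈ X
    · exact Finset.mem_union_left _ hX
    · exact Finset.mem_union_right _ (hB Q hQ hX)
  calc ∑ P ∈ TL.image (H6.below E L), nrm E s P.asIdeal
      ≤ ∑ P ∈ X ∪ B, nrm E s P.asIdeal :=
        Finset.sum_le_sum_of_subset_of_nonneg hsub (fun P _ _ => H27.nrm_nonneg E s _)
    _ ≤ ∑ P ∈ X, nrm E s P.asIdeal + ∑ P ∈ B, nrm E s P.asIdeal := by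
        have h1 := Finset.sum_union_inter (s₁ := X) (s₂ := B)
          (f := fun P : HeightOneSpectrum (𝓞 E) => nrm E s P.asIdeal)
        have h2 : 0 ≤ ∑ P ∈ X ∩ B, nrm E s P.asIdeal :=
          Finset.sum_nonneg (fun P _ => H27.nrm_nonneg E s _)
        linarith
    _ ≤ X.card + ∑ P ∈ B, nrm E s P.asIdeal := by
        refine add_le_add ?_ le_rfl
        calc ∑ P ∈ X, nrm E s P.asIdeal ≤ ∑ _P ∈ X, (1 : ℝ) :=
              Finset.sum_le_sum (fun P _ => H22.nrm_le_one E hs _)
          _ = X.card := by rw [Finset.sum_const, nsmul_eq_mul, mul_one]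

/-- A prime of `E` below a prime of `L` of absolute degree one has absolute degree one and the
same norm. -/
theorem below_degOne {Q : HeightOneSpectrum (𝓞 L)} (hQ : Q ∈ degOne L) :
    H6.below E L Q ∈ degOne E ∧
      Ideal.absNorm Q.asIdeal = Ideal.absNorm (H6.below E L Q).asIdeal := by
  obtain ⟨P, hP0, hP1, hP2, -⟩ := (H6.stNRM E L).1 Q hQ
  have : H6.below E L Q = P := HeightOneSpectrum.ext hP1
  rw [this]
  exact ⟨hP0, hP2.symm⟩

end Defs

theorem tendsto_log_one_div :
    Tendsto (fun s : ℝ => Real.log (1 / (s - 1))) (𝓝[>] (1 : ℝ)) atTop := by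
  have h1 : Tendsto (fun s : ℝ => s - 1) (𝓝[>] (1 : ℝ)) (𝓝[>] (0 : ℝ)) := by
    refine tendsto_nhdsWithin_of_tendsto_nhds_of_eventually_within _ ?_ ?_
    · have : Tendsto (fun s : ℝ => s - 1) (𝓝 (1 : ℝ)) (𝓝 ((1 : ℝ) - 1)) :=
        (continuous_id.sub continuous_const).tendsto 1
      rw [sub_self] at this
      exact this.mono_left nhdsWithin_le_nhds
    · filter_upwards [self_mem_nhdsWithin] with s hs
      exact sub_pos.mpr (Set.mem_Ioi.mp hs)
  have h2 : Tendsto (fun s : ℝ => (s - 1)⁻¹) (𝓝[>] (1 : ℝ)) atTop :=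
    tendsto_inv_nhdsGT_zero.comp h1
  refine (Real.tendsto_log_atTop.comp h2).congr fun s => ?_
  simp [one_div]

section Main

variable (E : Type u) [Field E] [NumberField E] {ι : Type*} [Fintype ι] [DecidableEq ι]
  (L : Finset ι → Type v) [∀ I, Field (L I)] [∀ I, NumberField (L I)] [∀ I, Algebra E (L I)]

/-- **Primes avoiding finitely many splitting conditions.** -/
theorem dens_avoid (d : ι → ℕ) (hd : ∀ i, 2 ≤ d i)
    (hdeg : ∀ I, Module.finrank E (L I) = ∏ i ∈ I, d i)
    (split : ι → Set (HeightOneSpectrum (𝓞 E)))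
    (T₀ : Finset (HeightOneSpectrum (𝓞 E)))
    (h1 : ∀ I, ∀ P, P ∉ T₀ → P ∈ degOne E → (∀ i ∈ I, P ∈ split i) → SplitsIn E (L I) P)
    (h2 : ∀ I, ∀ P, P ∉ T₀ → P ∈ degOne E → HasDegOneAbove E (L I) P → ∀ i ∈ I, P ∈ split i)
    (T : Finset (HeightOneSpectrum (𝓞 E))) :
    ∃ P, P ∉ T ∧ P ∈ degOne E ∧ ∀ i, P ∉ split i := by
  classical
  have hU : ∀ I, StPZupper (L I) := fun I => Fermat.Agent.S14x.LFN.H27.stPZupper (L I)
  have hLo : ∀ I, StPZlower (L I) := fun I => Fermat.Agent.S14x.LFN.H27.stPZlower (L I)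
  choose Cu hCu using hU
  choose Cl hCl using hLo
  set X : Finset (HeightOneSpectrum (𝓞 E)) := T₀ ∪ T with hX
  -- degrees
  have hn1 : ∀ I : Finset ι, (1 : ℝ) ≤ (Module.finrank E (L I) : ℝ) := by
    intro I
    rw [hdeg I]
    have : 1 ≤ ∏ i ∈ I, d i := Nat.one_le_iff_ne_zero.mpr
      (Finset.prod_ne_zero_iff.mpr fun i _ => by have := hd i; omega)
    exact_mod_cast this
  set c : ℝ := ∏ i : ι, (1 - 1 / (d i : ℝ)) with hc_def
  have hc : 0 < c := by
    refine Finset.prod_pos fun i _ => ?_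
    have h2 : (2 : ℝ) ≤ (d i : ℝ) := by exact_mod_cast hd i
    have : 1 / (d i : ℝ) ≤ 1 / 2 := one_div_le_one_div_of_le (by norm_num) h2
    linarith
  set K : ℝ := ∑ I : Finset ι, (|Cu I| + |Cl I| + X.card) with hK_def
  -- choose `s`
  have hev : ∀ᶠ s in 𝓝[>] (1 : ℝ),
      (∀ I : Finset ι, ∀ T' : Finset (HeightOneSpectrum (𝓞 (L I))),
        ∑ Q ∈ T', nrm (L I) s Q.asIdeal ≤ Real.log (1 / (s - 1)) + Cu I) ∧
      (∀ I : Finset ι, ∃ T' : Finset (HeightOneSpectrum (𝓞 (L I))),
        (∀ Q ∈ T', Q ∈ degOne (L I)) ∧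
          Real.log (1 / (s - 1)) - Cl I ≤ ∑ Q ∈ T', nrm (L I) s Q.asIdeal) ∧
      1 < s ∧ K / c < Real.log (1 / (s - 1)) := by
    refine ((eventually_all.mpr hCu).and ((eventually_all.mpr hCl).and ?_))
    refine Filter.Eventually.and ?_ (tendsto_log_one_div.eventually_gt_atTop (K / c))
    filter_upwards [self_mem_nhdsWithin] with s hs using hs
  obtain ⟨s, hsU, hsL, hs1, hslog⟩ := hev.exists
  have hs0 : 0 ≤ s := by linarith
  choose TL hTL1 hTL2 using hsL
  set lg : ℝ := Real.log (1 / (s - 1)) with hlg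
  -- the finite set of primes of `E`
  set B : Finset (HeightOneSpectrum (𝓞 E)) :=
    ((Finset.univ : Finset (Finset ι)).biUnion
      (fun I => (TL I).image (H6.below E (L I)))).filter (fun P => P ∉ X) with hB
  have hBmem : ∀ P ∈ B, P ∈ degOne E ∧ P ∉ T₀ ∧ P ∉ T := by
    intro P hP
    obtain ⟨hP1, hP2⟩ := Finset.mem_filter.mp hP
    obtain ⟨I, -, hI⟩ := Finset.mem_biUnion.mp hP1
    obtain ⟨Q, hQ, rfl⟩ := Finset.mem_image.mp hI
    refine ⟨(below_degOne E (L I) (hTL1 I Q hQ)).1, fun h => hP2 ?_, fun h => hP2 ?_⟩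
    · exact Finset.mem_union_left _ h
    · exact Finset.mem_union_right _ h
  -- indicators
  set χ : ι → HeightOneSpectrum (𝓞 E) → ℝ := fun i P => if P ∈ split i then 1 else 0 with hχ
  have hχprod : ∀ (I : Finset ι) (P : HeightOneSpectrum (𝓞 E)),
      ∏ i ∈ I, χ i P = if ∀ i ∈ I, P ∈ split i then 1 else 0 := by
    intro I P
    split_ifs with h
    · exact Finset.prod_eq_one fun i hi => if_pos (h i hi)
    · rw [not_forall] at h
      obtain ⟨i, h⟩ := h
      rw [Classical.not_imp] at h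
      obtain ⟨hi, hiP⟩ := h
      exact Finset.prod_eq_zero hi (if_neg hiP)
  set U : Finset ι → ℝ := fun I => ∑ P ∈ B, nrm E s P.asIdeal * ∏ i ∈ I, χ i P with hUdef
  have hUfilter : ∀ I : Finset ι,
      U I = ∑ P ∈ B.filter (fun P => ∀ i ∈ I, P ∈ split i), nrm E s P.asIdeal := by
    intro I
    rw [hUdef, Finset.sum_filter]
    refine Finset.sum_congr rfl fun P _ => ?_
    rw [hχprod I P]
    split_ifs <;> simp
  -- the two bounds for every `I`
  have hupper : ∀ I : Finset ι, (Module.finrank E (L I) : ℝ) * U I ≤ lg + Cu I := by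
    intro I
    rw [hUfilter I]
    refine upper_one E (L I) s (Cu I) (hsU I) _ fun P hP => ?_
    obtain ⟨hPB, hPs⟩ := Finset.mem_filter.mp hP
    exact h1 I P (hBmem P hPB).2.1 (hBmem P hPB).1 hPs
  have hlower : ∀ I : Finset ι,
      lg - Cl I ≤ (Module.finrank E (L I) : ℝ) * X.card + (Module.finrank E (L I) : ℝ) * U I := by
    intro I
    rw [hUfilter I]
    refine (hTL2 I).trans (lower_one E (L I) s hs0 (TL I) (hTL1 I) X _ fun Q hQ hQX => ?_)
    have hQB : H6.below E (L I) Q ∈ B := by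
      rw [hB, Finset.mem_filter]
      exact ⟨Finset.mem_biUnion.mpr ⟨I, Finset.mem_univ _, Finset.mem_image_of_mem _ hQ⟩, hQX⟩
    refine Finset.mem_filter.mpr ⟨hQB, ?_⟩
    have hd1 := below_degOne E (L I) (hTL1 I Q hQ)
    exact h2 I _ (hBmem _ hQB).2.1 hd1.1 ⟨Q, rfl, hd1.2⟩
  have hclose : ∀ I : Finset ι,
      |U I - lg / (Module.finrank E (L I) : ℝ)| ≤ |Cu I| + |Cl I| + X.card := by
    intro I
    have hn := hn1 I
    have hnpos : (0 : ℝ) < (Module.finrank E (L I) : ℝ) := by linarith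
    have hu := hupper I
    have hl := hlower I
    have hXc : (0 : ℝ) ≤ (X.card : ℝ) := Nat.cast_nonneg _
    have e1 : U I - lg / (Module.finrank E (L I) : ℝ) ≤ |Cu I| := by
      have h3 : U I ≤ (lg + Cu I) / (Module.finrank E (L I) : ℝ) := by
        rw [le_div_iff₀ hnpos]
        linarith
      have h4 : Cu I / (Module.finrank E (L I) : ℝ) ≤ |Cu I| :=
        (div_le_div_of_nonneg_right (le_abs_self _) hnpos.le).trans
          (div_le_self (abs_nonneg _) hn)
      rw [add_div] at h3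
      linarith
    have e2 : -(|Cl I| + X.card) ≤ U I - lg / (Module.finrank E (L I) : ℝ) := by
      have h3 : (lg - Cl I) / (Module.finrank E (L I) : ℝ) - X.card ≤ U I := by
        rw [sub_le_iff_le_add, div_le_iff₀ hnpos]
        linarith
      have h4 : Cl I / (Module.finrank E (L I) : ℝ) ≤ |Cl I| :=
        (div_le_div_of_nonneg_right (le_abs_self _) hnpos.le).trans
          (div_le_self (abs_nonneg _) hn)
      rw [sub_div] at h3
      linarith
    rw [abs_le]
    constructor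
    · linarith [abs_nonneg (Cu I)]
    · linarith [abs_nonneg (Cl I)]
  -- inclusion-exclusion
  have hIE : ∀ P : HeightOneSpectrum (𝓞 E),
      ∏ i : ι, (1 - χ i P) = ∑ I : Finset ι, (-1 : ℝ) ^ I.card * ∏ i ∈ I, χ i P := by
    intro P
    have h := Finset.prod_add_one (s := (Finset.univ : Finset ι)) (f := fun i => -χ i P)
    have e : ∏ i : ι, (1 - χ i P) = ∏ i : ι, (-χ i P + 1) :=
      Finset.prod_congr rfl fun i _ => by ring
    rw [e, h, Finset.powerset_univ]
    refine Finset.sum_congr rfl fun I _ => ?_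
    rw [Finset.prod_neg]
  have hcIE : c = ∑ I : Finset ι, (-1 : ℝ) ^ I.card / (Module.finrank E (L I) : ℝ) := by
    have h := Finset.prod_add_one (s := (Finset.univ : Finset ι))
      (f := fun i => -(1 / (d i : ℝ)))
    have e : c = ∏ i : ι, (-(1 / (d i : ℝ)) + 1) :=
      Finset.prod_congr rfl fun i _ => by ring
    rw [e, h, Finset.powerset_univ]
    refine Finset.sum_congr rfl fun I _ => ?_
    rw [Finset.prod_neg, hdeg I, Nat.cast_prod, Finset.prod_div_distrib, Finset.prod_const_one,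
      mul_one_div]
  have hsum : ∑ P ∈ B, nrm E s P.asIdeal * ∏ i : ι, (1 - χ i P) =
      ∑ I : Finset ι, (-1 : ℝ) ^ I.card * U I := by
    simp only [hIE, Finset.mul_sum, hUdef]
    rw [Finset.sum_comm]
    refine Finset.sum_congr rfl fun I _ => Finset.sum_congr rfl fun P _ => ?_
    ring
  have hbig : c * lg - K ≤ ∑ P ∈ B, nrm E s P.asIdeal * ∏ i : ι, (1 - χ i P) := by
    rw [hsum, hcIE, Finset.sum_mul, hK_def, ← Finset.sum_sub_distrib]
    refine Finset.sum_le_sum fun I _ => ?_
    have h := hclose I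
    rw [abs_le] at h
    have e : (-1 : ℝ) ^ I.card / (Module.finrank E (L I) : ℝ) * lg =
        (-1 : ℝ) ^ I.card * (lg / (Module.finrank E (L I) : ℝ)) := by ring
    rw [e]
    rcases neg_one_pow_eq_or ℝ I.card with hsgn | hsgn
    · rw [hsgn]
      linarith [h.1, h.2]
    · rw [hsgn]
      linarith [h.1, h.2]
  have hpos : 0 < ∑ P ∈ B, nrm E s P.asIdeal * ∏ i : ι, (1 - χ i P) := by
    refine lt_of_lt_of_le ?_ hbig
    have : K < c * lg := by
      have := (div_lt_iff₀ hc).mp hslog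
      linarith
    linarith
  obtain ⟨P, hPB, hPne⟩ := Finset.exists_ne_zero_of_sum_ne_zero hpos.ne'
  refine ⟨P, (hBmem P hPB).2.2, (hBmem P hPB).1, fun i hi => hPne ?_⟩
  have : ∏ j : ι, (1 - χ j P) = 0 :=
    Finset.prod_eq_zero (Finset.mem_univ i) (by simp [hχ, hi])
  rw [this, mul_zero]

end Main

end Fermat.Agent.S42x.Dens.H27
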