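import Mathlib
import Fermat.Agent.S42x.Dens.H16_Defs
import Fermat.Agent.S42x.Dens.H27_Avoid

/-!
# W7 (DENS), analytic half (helper27): `(A1)` and `(A2)`

* `hasInvDensity_of_split` (A1): a set `𝒜` of primes of `E` all of whose members split
  completely in `F`, and which contains the primes below almost all primes of `F` of absolute
  degree one, has logarithmic density `1 / [F : E]`.
* `exists_avoid` (A2): inclusion-exclusion.  If for every `I ⊆ R` the set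
  `{P ∈ 𝒰 | ∀ r ∈ I, P ∈ ℬ r}` has density `1 / ∏ I`, then some `P ∈ 𝒰` lies in no `ℬ r`.
-/

set_option autoImplicit false
set_option linter.unusedSectionVars false

open NumberField IsDedekindDomain Filter Topology

open Fermat.Agent.S14x.LFN

noncomputable section

namespace Fermat.Agent.S42x.Dens.H27

/-- **(A1)** -/
theorem hasInvDensity_of_split (E F : Type*) [Field E] [NumberField E] [Field F]
    [NumberField F] [Algebra E F] (𝒜 : Set (HeightOneSpectrum (𝓞 E)))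
    (hup : ∀ P ∈ 𝒜, ∃ S : Finset (HeightOneSpectrum (𝓞 F)), S.card = Module.finrank E F ∧
      ∀ 𝔭 ∈ S, 𝔭.asIdeal.under (𝓞 E) = P.asIdeal ∧
        Ideal.absNorm 𝔭.asIdeal = Ideal.absNorm P.asIdeal)
    (T₁ : Finset (HeightOneSpectrum (𝓞 F)))
    (hlo : ∀ 𝔭 : HeightOneSpectrum (𝓞 F), 𝔭 ∈ degOne F → 𝔭 ∉ T₁ →
      ∃ P ∈ 𝒜, 𝔭.asIdeal.under (𝓞 E) = P.asIdeal) :
    HasInvDensity E 𝒜 (Module.finrank E F) := by
  classical
  obtain ⟨Cu, hCu⟩ := Fermat.Agent.S14x.LFN.H27.stPZupper F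
  obtain ⟨Cl, hCl⟩ := Fermat.Agent.S14x.LFN.H27.stPZlower F
  refine ⟨max Cu (Cl + T₁.card), ?_⟩
  filter_upwards [hCu, hCl, self_mem_nhdsWithin] with s hsU hsL hs1
  have hs0 : (0 : ℝ) ≤ s := le_of_lt (lt_trans zero_lt_one hs1)
  constructor
  · intro X hX
    have h := upper_one E F s Cu hsU X (fun P hP => hup P (hX P hP))
    exact h.trans (add_le_add le_rfl (le_max_left _ _))
  · obtain ⟨TL, hTL1, hTL2⟩ := hsL
    set TL' : Finset (HeightOneSpectrum (𝓞 F)) := TL.filter (fun 𝔭 => 𝔭 ∉ T₁) with hTL'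
    refine ⟨TL'.image (H6.below E F), ?_, ?_⟩
    · intro P hP
      obtain ⟨𝔭, h𝔭, rfl⟩ := Finset.mem_image.mp hP
      obtain ⟨h𝔭1, h𝔭2⟩ := Finset.mem_filter.mp h𝔭
      obtain ⟨P', hP', hP'eq⟩ := hlo 𝔭 (hTL1 𝔭 h𝔭1) h𝔭2
      have : H6.below E F 𝔭 = P' := HeightOneSpectrum.ext hP'eq
      rw [this]
      exact hP'
    · -- split off `T₁`
      have hsplit : ∑ Q ∈ TL, nrm F s Q.asIdeal ≤ T₁.card + ∑ Q ∈ TL', nrm F s Q.asIdeal := by
        have h1 : ∑ Q ∈ TL, nrm F s Q.asIdeal =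
            ∑ Q ∈ TL.filter (fun 𝔭 => 𝔭 ∉ T₁), nrm F s Q.asIdeal +
              ∑ Q ∈ TL.filter (fun 𝔭 => ¬ 𝔭 ∉ T₁), nrm F s Q.asIdeal :=
          (Finset.sum_filter_add_sum_filter_not TL (fun 𝔭 => 𝔭 ∉ T₁) _).symm
        have h2 : ∑ Q ∈ TL.filter (fun 𝔭 => ¬ 𝔭 ∉ T₁), nrm F s Q.asIdeal ≤ T₁.card := by
          calc ∑ Q ∈ TL.filter (fun 𝔭 => ¬ 𝔭 ∉ T₁), nrm F s Q.asIdeal
              ≤ ∑ Q ∈ T₁, nrm F s Q.asIdeal := by
                refine Finset.sum_le_sum_of_subset_of_nonneg ?_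
                  (fun P _ _ => Fermat.Agent.S14x.LFN.H27.nrm_nonneg F s _)
                intro Q hQ
                exact not_not.mp (Finset.mem_filter.mp hQ).2
            _ ≤ ∑ _Q ∈ T₁, (1 : ℝ) :=
                Finset.sum_le_sum (fun P _ => H22.nrm_le_one F hs0 _)
            _ = T₁.card := by rw [Finset.sum_const, nsmul_eq_mul, mul_one]
        rw [h1]
        linarith
      have hlow := lower_one E F s hs0 TL' (fun Q hQ => hTL1 Q (Finset.mem_filter.mp hQ).1)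
        ∅ (TL'.image (H6.below E F)) (fun Q hQ _ => Finset.mem_image_of_mem _ hQ)
      rw [Finset.card_empty, Nat.cast_zero, mul_zero, zero_add] at hlow
      have hmax : Cl + T₁.card ≤ max Cu (Cl + T₁.card) := le_max_right _ _
      linarith

/-- **(A2)** inclusion-exclusion. -/
theorem exists_avoid (E : Type*) [Field E] [NumberField E] (R : Finset ℕ)
    (hR : ∀ r ∈ R, 2 ≤ r) (𝒰 : Set (HeightOneSpectrum (𝓞 E)))
    (ℬ : ℕ → Set (HeightOneSpectrum (𝓞 E)))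
    (h : ∀ I ⊆ R, HasInvDensity E {P | P ∈ 𝒰 ∧ ∀ r ∈ I, P ∈ ℬ r} (∏ r ∈ I, r)) :
    ∃ P ∈ 𝒰, ∀ r ∈ R, P ∉ ℬ r := by
  classical
  -- constants
  have h' : ∀ I : Finset ℕ, ∃ C : ℝ, I ⊆ R → ∀ᶠ s in 𝓝[>] (1 : ℝ),
      (∀ X : Finset (HeightOneSpectrum (𝓞 E)),
        (∀ P ∈ X, P ∈ {P | P ∈ 𝒰 ∧ ∀ r ∈ I, P ∈ ℬ r}) →
        ((∏ r ∈ I, r : ℕ) : ℝ) * ∑ P ∈ X, nrm E s P.asIdeal ≤ Real.log (1 / (s - 1)) + C) ∧
      (∃ X : Finset (HeightOneSpectrum (𝓞 E)),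
        (∀ P ∈ X, P ∈ {P | P ∈ 𝒰 ∧ ∀ r ∈ I, P ∈ ℬ r}) ∧
        Real.log (1 / (s - 1)) - C ≤ ((∏ r ∈ I, r : ℕ) : ℝ) * ∑ P ∈ X, nrm E s P.asIdeal) := by
    intro I
    by_cases hI : I ⊆ R
    · obtain ⟨C, hC⟩ := h I hI
      exact ⟨C, fun _ => hC⟩
    · exact ⟨0, fun hI' => absurd hI' hI⟩
  choose C hC using h'
  have hd1 : ∀ I ∈ R.powerset, (1 : ℝ) ≤ ((∏ r ∈ I, r : ℕ) : ℝ) := by
    intro I hI
    have : 1 ≤ ∏ r ∈ I, r := Nat.one_le_iff_ne_zero.mpr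
      (Finset.prod_ne_zero_iff.mpr fun r hr => by
        have := hR r (Finset.mem_powerset.mp hI hr); omega)
    exact_mod_cast this
  set c : ℝ := ∏ r ∈ R, (1 - 1 / (r : ℝ)) with hc_def
  have hc : 0 < c := by
    refine Finset.prod_pos fun r hr => ?_
    have h2 : (2 : ℝ) ≤ (r : ℝ) := by exact_mod_cast hR r hr
    have : 1 / (r : ℝ) ≤ 1 / 2 := one_div_le_one_div_of_le (by norm_num) h2
    linarith
  set K : ℝ := ∑ I ∈ R.powerset, |C I| with hK_def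
  have hev : ∀ᶠ s in 𝓝[>] (1 : ℝ),
      (∀ I ∈ R.powerset,
        (∀ X : Finset (HeightOneSpectrum (𝓞 E)),
          (∀ P ∈ X, P ∈ {P | P ∈ 𝒰 ∧ ∀ r ∈ I, P ∈ ℬ r}) →
          ((∏ r ∈ I, r : ℕ) : ℝ) * ∑ P ∈ X, nrm E s P.asIdeal ≤
            Real.log (1 / (s - 1)) + C I) ∧
        (∃ X : Finset (HeightOneSpectrum (𝓞 E)),
          (∀ P ∈ X, P ∈ {P | P ∈ 𝒰 ∧ ∀ r ∈ I, P ∈ ℬ r}) ∧
          Real.log (1 / (s - 1)) - C I ≤
            ((∏ r ∈ I, r : ℕ) : ℝ) * ∑ P ∈ X, nrm E s P.asIdeal)) ∧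
      K / c < Real.log (1 / (s - 1)) := by
    refine Filter.Eventually.and ?_ (tendsto_log_one_div.eventually_gt_atTop (K / c))
    rw [Filter.eventually_all_finset]
    intro I hI
    exact hC I (Finset.mem_powerset.mp hI)
  obtain ⟨s, hsI, hslog⟩ := hev.exists
  set lg : ℝ := Real.log (1 / (s - 1)) with hlg
  -- witnesses of the lower bounds
  have hex : ∀ I : Finset ℕ, ∃ X : Finset (HeightOneSpectrum (𝓞 E)), I ∈ R.powerset →
      (∀ P ∈ X, P ∈ {P | P ∈ 𝒰 ∧ ∀ r ∈ I, P ∈ ℬ r}) ∧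
        lg - C I ≤ ((∏ r ∈ I, r : ℕ) : ℝ) * ∑ P ∈ X, nrm E s P.asIdeal := by
    intro I
    by_cases hI : I ∈ R.powerset
    · obtain ⟨X, hX⟩ := (hsI I hI).2
      exact ⟨X, fun _ => hX⟩
    · exact ⟨∅, fun hI' => absurd hI' hI⟩
  choose XI hXI using hex
  set B : Finset (HeightOneSpectrum (𝓞 E)) := R.powerset.biUnion XI with hB
  have hBU : ∀ P ∈ B, P ∈ 𝒰 := by
    intro P hP
    obtain ⟨I, hI, hPI⟩ := Finset.mem_biUnion.mp hP
    exact ((hXI I hI).1 P hPI).1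
  set χ : ℕ → HeightOneSpectrum (𝓞 E) → ℝ := fun r P => if P ∈ ℬ r then 1 else 0 with hχ
  have hχprod : ∀ (I : Finset ℕ) (P : HeightOneSpectrum (𝓞 E)),
      ∏ r ∈ I, χ r P = if ∀ r ∈ I, P ∈ ℬ r then 1 else 0 := by
    intro I P
    split_ifs with h
    · exact Finset.prod_eq_one fun i hi => if_pos (h i hi)
    · rw [not_forall] at h
      obtain ⟨i, h⟩ := h
      rw [Classical.not_imp] at h
      obtain ⟨hi, hiP⟩ := h
      exact Finset.prod_eq_zero hi (if_neg hiP)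
  set U : Finset ℕ → ℝ := fun I => ∑ P ∈ B, nrm E s P.asIdeal * ∏ r ∈ I, χ r P with hUdef
  have hUfilter : ∀ I : Finset ℕ,
      U I = ∑ P ∈ B.filter (fun P => ∀ r ∈ I, P ∈ ℬ r), nrm E s P.asIdeal := by
    intro I
    rw [hUdef, Finset.sum_filter]
    refine Finset.sum_congr rfl fun P _ => ?_
    rw [hχprod I P]
    split_ifs <;> simp
  have hupper : ∀ I ∈ R.powerset, ((∏ r ∈ I, r : ℕ) : ℝ) * U I ≤ lg + C I := by
    intro I hI
    rw [hUfilter I]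
    refine (hsI I hI).1 _ fun P hP => ?_
    obtain ⟨hPB, hPs⟩ := Finset.mem_filter.mp hP
    exact ⟨hBU P hPB, hPs⟩
  have hlower : ∀ I ∈ R.powerset, lg - C I ≤ ((∏ r ∈ I, r : ℕ) : ℝ) * U I := by
    intro I hI
    rw [hUfilter I]
    refine (hXI I hI).2.trans ?_
    refine mul_le_mul_of_nonneg_left ?_ (Nat.cast_nonneg _)
    refine Finset.sum_le_sum_of_subset_of_nonneg ?_
      (fun P _ _ => Fermat.Agent.S14x.LFN.H27.nrm_nonneg E s _)
    intro P hP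
    exact Finset.mem_filter.mpr
      ⟨Finset.mem_biUnion.mpr ⟨I, hI, hP⟩, ((hXI I hI).1 P hP).2⟩
  have hclose : ∀ I ∈ R.powerset, |U I - lg / ((∏ r ∈ I, r : ℕ) : ℝ)| ≤ |C I| := by
    intro I hI
    have hn := hd1 I hI
    have hnpos : (0 : ℝ) < ((∏ r ∈ I, r : ℕ) : ℝ) := by linarith
    have hu := hupper I hI
    have hl := hlower I hI
    have h4 : C I / ((∏ r ∈ I, r : ℕ) : ℝ) ≤ |C I| :=
      (div_le_div_of_nonneg_right (le_abs_self _) hnpos.le).trans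
        (div_le_self (abs_nonneg _) hn)
    have h5 : -|C I| ≤ C I / ((∏ r ∈ I, r : ℕ) : ℝ) := by
      have h6 : -(C I) / ((∏ r ∈ I, r : ℕ) : ℝ) ≤ |C I| :=
        (div_le_div_of_nonneg_right (neg_le_abs _) hnpos.le).trans
          (div_le_self (abs_nonneg _) hn)
      rw [neg_div] at h6
      linarith
    have e1 : U I ≤ (lg + C I) / ((∏ r ∈ I, r : ℕ) : ℝ) := by
      rw [le_div_iff₀ hnpos]
      linarith
    have e2 : (lg - C I) / ((∏ r ∈ I, r : ℕ) : ℝ) ≤ U I := by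
      rw [div_le_iff₀ hnpos]
      linarith
    rw [add_div] at e1
    rw [sub_div] at e2
    rw [abs_le]
    constructor <;> linarith
  have hIE : ∀ P : HeightOneSpectrum (𝓞 E),
      ∏ r ∈ R, (1 - χ r P) = ∑ I ∈ R.powerset, (-1 : ℝ) ^ I.card * ∏ r ∈ I, χ r P := by
    intro P
    have h := Finset.prod_add_one (s := R) (f := fun r => -χ r P)
    have e : ∏ r ∈ R, (1 - χ r P) = ∏ r ∈ R, (-χ r P + 1) :=
      Finset.prod_congr rfl fun i _ => by ring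
    rw [e, h]
    refine Finset.sum_congr rfl fun I _ => ?_
    rw [Finset.prod_neg]
  have hcIE : c = ∑ I ∈ R.powerset, (-1 : ℝ) ^ I.card / ((∏ r ∈ I, r : ℕ) : ℝ) := by
    have h := Finset.prod_add_one (s := R) (f := fun r : ℕ => -(1 / (r : ℝ)))
    have e : c = ∏ r ∈ R, (-(1 / (r : ℝ)) + 1) :=
      Finset.prod_congr rfl fun i _ => by ring
    rw [e, h]
    refine Finset.sum_congr rfl fun I _ => ?_
    rw [Finset.prod_neg, Nat.cast_prod, Finset.prod_div_distrib, Finset.prod_const_one,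
      mul_one_div]
  have hsum : ∑ P ∈ B, nrm E s P.asIdeal * ∏ r ∈ R, (1 - χ r P) =
      ∑ I ∈ R.powerset, (-1 : ℝ) ^ I.card * U I := by
    simp only [hIE, Finset.mul_sum, hUdef]
    rw [Finset.sum_comm]
    refine Finset.sum_congr rfl fun I _ => Finset.sum_congr rfl fun P _ => ?_
    ring
  have hbig : c * lg - K ≤ ∑ P ∈ B, nrm E s P.asIdeal * ∏ r ∈ R, (1 - χ r P) := by
    rw [hsum, hcIE, Finset.sum_mul, hK_def, ← Finset.sum_sub_distrib]
    refine Finset.sum_le_sum fun I hI => ?_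
    have h := hclose I hI
    rw [abs_le] at h
    have e : (-1 : ℝ) ^ I.card / ((∏ r ∈ I, r : ℕ) : ℝ) * lg =
        (-1 : ℝ) ^ I.card * (lg / ((∏ r ∈ I, r : ℕ) : ℝ)) := by ring
    rw [e]
    rcases neg_one_pow_eq_or ℝ I.card with hsgn | hsgn
    · rw [hsgn]
      linarith [h.1, h.2]
    · rw [hsgn]
      linarith [h.1, h.2]
  have hpos : 0 < ∑ P ∈ B, nrm E s P.asIdeal * ∏ r ∈ R, (1 - χ r P) := by
    refine lt_of_lt_of_le ?_ hbig
    have : K < c * lg := by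
      have := (div_lt_iff₀ hc).mp hslog
      linarith
    linarith
  obtain ⟨P, hPB, hPne⟩ := Finset.exists_ne_zero_of_sum_ne_zero hpos.ne'
  refine ⟨P, hBU P hPB, fun r hr hmem => hPne ?_⟩
  have : ∏ j ∈ R, (1 - χ j P) = 0 :=
    Finset.prod_eq_zero hr (by simp [hχ, hmem])
  rw [this, mul_zero]

end Fermat.Agent.S42x.Dens.H27
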