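import Mathlib
import Fermat.Agent.S42x.Dens.H16_Inert
import Fermat.Agent.S42x.Dens.H27_Density

/-!
# W7 / (DENS) (helper16): the number-field statement (NF)

* `exists_inert`: (B) hypothesis-free (helper27's `hasInvDensity_of_split`, `exists_avoid`
  plugged into `exists_inert_of`);
* `exists_frob_generator`: for a Galois number field `M / ℚ`, `h₀ ∈ Gal(M/ℚ)` and a finite set
  `S` of primes, there are a prime `𝔓` of `M` and a prime number `ℓ ∉ S`, `ℓ ∈ 𝔓`, such that `h₀`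
  is a power of every `τ ∈ Gal(M/ℚ)` with `τ x ≡ x ^ ℓ mod 𝔓` on `𝓞 M`.

Route: `E :=` fixed field of `⟨h₀⟩`, `M / E` cyclic; an inert prime `P` of `E` of degree one,
unramified over `ℚ`; the Frobenius of `M / E` at `𝔓 ∣ P` has order `[M : E]`, so generates, and
is the unique Frobenius over `ℚ` (`Art.H28.frob_unique`).
-/

set_option autoImplicit false
set_option linter.unusedSectionVars false
set_option linter.unusedVariables false
set_option linter.style.haveILetI false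

open NumberField IsDedekindDomain Filter Topology
open scoped Pointwise

noncomputable section

namespace Fermat.Agent.S42x.Dens.H16

open Fermat.Agent.S14x.LFN Fermat.Agent.S14x

theorem stSplit : StSplit := fun E F _ _ _ _ _ 𝒜 hup T₁ hlo =>
  H27.hasInvDensity_of_split E F 𝒜 hup T₁ hlo

theorem stAvoid : StAvoid := fun E _ _ R hR 𝒰 ℬ h => H27.exists_avoid E R hR 𝒰 ℬ h

/-- **(B)**, hypothesis-free. -/
theorem exists_inert (E M : Type) [Field E] [NumberField E] [Field M] [NumberField M]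
    [Algebra E M] [IsGalois E M] (g₀ : Gal(M/E))
    (hg₀ : ∀ x : Gal(M/E), x ∈ Subgroup.zpowers g₀) (T : Finset (HeightOneSpectrum (𝓞 E))) :
    ∃ P : HeightOneSpectrum (𝓞 E), P ∉ T ∧ P ∈ degOne E ∧
      ∀ 𝔓 : Ideal (𝓞 M), 𝔓.IsPrime → 𝔓.under (𝓞 E) = P.asIdeal →
        𝔓.inertiaDeg (𝓞 E) = Module.finrank E M :=
  exists_inert_of E M stSplit stAvoid g₀ hg₀ T

/-- The primes with norm in a finite set form a finite set. -/
theorem exists_finset_absNorm (E : Type) [Field E] [NumberField E] (S : Finset ℕ) :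
    ∃ T : Finset (HeightOneSpectrum (𝓞 E)), ∀ P : HeightOneSpectrum (𝓞 E), P ∉ T →
      Ideal.absNorm P.asIdeal ∉ S := by
  classical
  have hfin : {P : HeightOneSpectrum (𝓞 E) | Ideal.absNorm P.asIdeal ∈ S}.Finite := by
    have h1 : {I : Ideal (𝓞 E) | Ideal.absNorm I ∈ S}.Finite := by
      have : {I : Ideal (𝓞 E) | Ideal.absNorm I ∈ S} =
          ⋃ n ∈ S, {I : Ideal (𝓞 E) | Ideal.absNorm I = n} := by
        ext I
        simp
      rw [this]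
      exact Set.Finite.biUnion S.finite_toSet fun n _ => Ideal.finite_setOfPred_absNorm_eq n
    refine Set.Finite.of_finite_image (f := fun P : HeightOneSpectrum (𝓞 E) => P.asIdeal) ?_ ?_
    · refine h1.subset ?_
      rintro I ⟨P, hP, rfl⟩
      exact hP
    · intro P _ Q _ h
      exact HeightOneSpectrum.ext h
  refine ⟨hfin.toFinset, fun P hP h => hP ?_⟩
  rw [Set.Finite.mem_toFinset]
  exact h

section Gen

variable {M : Type} [Field M] [NumberField M] [IsGalois ℚ M]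

/-- The Galois group of `M` over the fixed field of `⟨h₀⟩` is generated by (the lift of) `h₀`. -/
theorem exists_generator (h₀ : Gal(M/ℚ)) :
    ∃ g₀ : Gal(M/(IntermediateField.fixedField (Subgroup.zpowers h₀))),
      g₀.restrictScalars ℚ = h₀ ∧
      ∀ y : Gal(M/(IntermediateField.fixedField (Subgroup.zpowers h₀))),
        y ∈ Subgroup.zpowers g₀ := by
  set H := Subgroup.zpowers h₀ with hH
  set E : IntermediateField ℚ M := IntermediateField.fixedField H with hE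
  have hfix : IntermediateField.fixingSubgroup E = H :=
    IntermediateField.fixingSubgroup_fixedField H
  have hmem : h₀ ∈ IntermediateField.fixingSubgroup E := by
    rw [hfix]
    exact Subgroup.mem_zpowers h₀
  set g₀ : Gal(M/E) := IntermediateField.fixingSubgroupEquiv E ⟨h₀, hmem⟩ with hg₀
  have h1 : g₀.restrictScalars ℚ = h₀ := by
    ext x
    rfl
  refine ⟨g₀, h1, fun y => ?_⟩
  have hy : y.restrictScalars ℚ ∈ H := by
    rw [← hfix]
    exact ((IntermediateField.fixingSubgroupEquiv E).symm y).2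
  rw [hH, Subgroup.mem_zpowers_iff] at hy
  obtain ⟨k, hk⟩ := hy
  rw [Subgroup.mem_zpowers_iff]
  refine ⟨k, ?_⟩
  apply AlgEquiv.restrictScalarsHom_injective ℚ
  rw [map_zpow]
  show (g₀.restrictScalars ℚ) ^ k = y.restrictScalars ℚ
  rw [h1, hk]

/-- **(NF)**, for an intermediate field `E` with `M / E` cyclic. -/
theorem exists_frob_generator_aux (E : IntermediateField ℚ M) (g₀ : Gal(M/E))
    (hg₀ : ∀ y : Gal(M/E), y ∈ Subgroup.zpowers g₀) (S : Finset ℕ) :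
    ∃ (𝔓 : Ideal (𝓞 M)) (ℓ : ℕ), 𝔓.IsPrime ∧ ℓ.Prime ∧ ℓ ∉ S ∧ (ℓ : 𝓞 M) ∈ 𝔓 ∧
      ∀ τ : Gal(M/ℚ), (∀ x : 𝓞 M, τ • x - x ^ ℓ ∈ 𝔓) →
        ∃ k : ℕ, g₀.restrictScalars ℚ = τ ^ k := by
  classical
  -- the exceptional set
  obtain ⟨TS, hTS⟩ := exists_finset_absNorm E S
  obtain ⟨TQ, hTQ⟩ := exists_finset_above ℚ E (H6.ramSet ℚ M)
  obtain ⟨P, hPT, hP1, hPin⟩ := exists_inert E M g₀ hg₀ (TS ∪ TQ ∪ H6.ramSet E M)
  have hPTS : P ∉ TS := fun h => hPT (Finset.mem_union_left _ (Finset.mem_union_left _ h))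
  have hPTQ : P ∉ TQ := fun h => hPT (Finset.mem_union_left _ (Finset.mem_union_right _ h))
  have hPram : P ∉ H6.ramSet E M := fun h => hPT (Finset.mem_union_right _ h)
  obtain ⟨𝔓, h𝔓, hover⟩ := exists_prime_over E M P
  haveI := h𝔓
  set ℓ := Ideal.absNorm P.asIdeal with hℓ
  have hℓp : ℓ.Prime := hP1
  have h𝔓0 : 𝔓 ≠ ⊥ := ne_bot_of_under_eq E M P 𝔓 hover
  -- `ℓ ∈ 𝔓`
  have hℓmem : (ℓ : 𝓞 M) ∈ 𝔓 := by
    have h1 : (ℓ : 𝓞 E) ∈ P.asIdeal := Ideal.absNorm_mem P.asIdeal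
    rw [← hover, Ideal.under_def, Ideal.mem_comap, map_natCast] at h1
    exact h1
  -- the prime of `ℚ` below
  set p₀ : HeightOneSpectrum (𝓞 ℚ) := H6.below ℚ E P with hp₀
  have hp₀ram : p₀ ∉ H6.ramSet ℚ M := hTQ P hPTQ
  have hoverQ : 𝔓.under (𝓞 ℚ) = p₀.asIdeal := by
    rw [hp₀, H6.below_asIdeal, ← hover, Ideal.under_under]
  have hnorm₀ : Ideal.absNorm p₀.asIdeal = ℓ := by
    have h1 := H6.absNorm_eq_pow ℚ E P
    rw [H6.inertiaDeg_eq_one_of_degOne ℚ E P hP1, pow_one] at h1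
    exact h1.symm
  haveI hunrE : Algebra.IsUnramifiedAt (𝓞 E) 𝔓 :=
    isUnramifiedAt_of_notMem_ramSet E M P hPram 𝔓 hover
  haveI hunrQ : Algebra.IsUnramifiedAt (𝓞 ℚ) 𝔓 :=
    isUnramifiedAt_of_notMem_ramSet ℚ M p₀ hp₀ram 𝔓 hoverQ
  haveI : 𝔓.LiesOver P.asIdeal := ⟨hover.symm⟩
  haveI : Finite (𝓞 M ⧸ 𝔓) := Ideal.finiteQuotientOfFreeOfNeBot 𝔓 h𝔓0
  -- the Frobenius over `E`
  obtain ⟨φ, hφ⟩ := IsArithFrobAt.exists_of_isInvariant (𝓞 E) Gal(M/E) 𝔓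
  have hord : orderOf φ = Nat.card Gal(M/E) := by
    rw [Art.H28.orderOf_frob P 𝔓 hφ, hPin 𝔓 h𝔓 hover, IsGalois.card_aut_eq_finrank]
  have hφtop : ∀ y : Gal(M/E), y ∈ Subgroup.zpowers φ := by
    intro y
    have : Subgroup.zpowers φ = ⊤ := by
      apply Subgroup.eq_top_of_card_eq
      rw [Nat.card_zpowers, hord]
    rw [this]
    exact Subgroup.mem_top y
  obtain ⟨k, hk⟩ := mem_powers_iff_mem_zpowers.mpr (hφtop g₀)
  have hk' : φ ^ k = g₀ := hk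
  refine ⟨𝔓, ℓ, h𝔓, hℓp, hTS P hPTS, hℓmem, fun τ hτ => ⟨k, ?_⟩⟩
  -- uniqueness of the Frobenius over `ℚ`
  have hτF : IsArithFrobAt (𝓞 ℚ) τ 𝔓 := by
    intro x
    have hcard : Nat.card (𝓞 ℚ ⧸ 𝔓.under (𝓞 ℚ)) = ℓ := by
      rw [hoverQ, ← hnorm₀]
      rfl
    rw [hcard]
    exact hτ x
  have hφF : IsArithFrobAt (𝓞 ℚ) (φ.restrictScalars ℚ) 𝔓 := by
    intro x
    have hcard : Nat.card (𝓞 ℚ ⧸ 𝔓.under (𝓞 ℚ)) = ℓ := by
      rw [hoverQ, ← hnorm₀]
      rfl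
    rw [hcard]
    have h1 := hφ x
    have hcard' : Nat.card (𝓞 E ⧸ 𝔓.under (𝓞 E)) = ℓ := by
      rw [hover]
      rfl
    rw [hcard'] at h1
    exact h1
  have heq : τ = φ.restrictScalars ℚ := Art.H28.frob_unique 𝔓 hτF hφF
  rw [heq, ← hk']
  ext x
  simp

/-- **(NF)** `M` a Galois number field, `h₀ ∈ Gal(M/ℚ)`, `S` a finite set of primes: there are a
prime `𝔓` of `M` over a prime number `ℓ ∉ S` such that `h₀` is a power of every Frobenius at `𝔓`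
over `ℓ`. -/
theorem exists_frob_generator (h₀ : Gal(M/ℚ)) (S : Finset ℕ) :
    ∃ (𝔓 : Ideal (𝓞 M)) (ℓ : ℕ), 𝔓.IsPrime ∧ ℓ.Prime ∧ ℓ ∉ S ∧ (ℓ : 𝓞 M) ∈ 𝔓 ∧
      ∀ τ : Gal(M/ℚ), (∀ x : 𝓞 M, τ • x - x ^ ℓ ∈ 𝔓) → ∃ k : ℕ, h₀ = τ ^ k := by
  obtain ⟨g₀, hg₀h, hg₀⟩ := exists_generator h₀
  obtain ⟨𝔓, ℓ, h1, h2, h3, h4, h5⟩ :=
    exists_frob_generator_aux (IntermediateField.fixedField (Subgroup.zpowers h₀)) g₀ hg₀ S
  refine ⟨𝔓, ℓ, h1, h2, h3, h4, fun τ hτ => ?_⟩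
  obtain ⟨k, hk⟩ := h5 τ hτ
  exact ⟨k, by rw [← hg₀h, hk]⟩

end Gen

end Fermat.Agent.S42x.Dens.H16
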