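import Mathlib
import Fermat.Prelude.Def_EllipticCurve_FrobeniusTrace
import Fermat.Agent.S54.Frobenius
import Fermat.Agent.S42x.Dens.H16_NF

/-!
# W7 / (DENS) (helper16): Frobenius density in the prelude spelling, from the transfer (C)

`dens_of : StTransfer → ∀ K S g, ∃ ℓ A σ k, ℓ.Prime ∧ ℓ ∉ S ∧ A.LiesOverPrime ℓ ∧
  A.IsFrobeniusAt σ ℓ ∧ ∀ x ∈ K, g x = (σ ^ k) x`:
every element of `Gal(ℚ̄/ℚ)` agrees on a given number field `K ⊆ ℚ̄` with a power of a Frobenius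
element at a valuation subring over a prime `ℓ` outside a given finite set.
`StTransfer` (C) = a valuation subring of `ℚ̄` over a given prime of a normal number field whose
Frobenius elements restrict to Frobenius elements.
-/

set_option autoImplicit false
set_option linter.unusedSectionVars false
set_option linter.unusedVariables false
set_option linter.style.haveILetI false

open NumberField IsDedekindDomain Filter Topology
open scoped Pointwise

noncomputable section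

namespace Fermat.Agent.S42x.Dens.H16

local notation "Qb" => AlgebraicClosure ℚ

/-- **(C)** as a Prop (helper27). -/
def StTransfer : Prop :=
  ∀ (K' : IntermediateField ℚ Qb) [NumberField K'] [Normal ℚ K'] (𝔓 : Ideal (𝓞 K'))
    [𝔓.IsPrime] (ℓ : ℕ), ℓ.Prime → (ℓ : 𝓞 K') ∈ 𝔓 →
    ∃ A : ValuationSubring Qb, A.LiesOverPrime ℓ ∧
      ∀ σ : Qb ≃ₐ[ℚ] Qb, A.IsFrobeniusAt σ ℓ →
        ∀ x : 𝓞 K', (AlgEquiv.restrictNormalHom K' σ) • x - x ^ ℓ ∈ 𝔓

/-- **(DENS)** from (C). -/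
theorem dens_of (hC : StTransfer) (K : IntermediateField ℚ Qb) [FiniteDimensional ℚ K]
    (S : Finset ℕ) (g : Qb ≃ₐ[ℚ] Qb) :
    ∃ (ℓ : ℕ) (A : ValuationSubring Qb) (σ : Qb ≃ₐ[ℚ] Qb) (k : ℕ),
      ℓ.Prime ∧ ℓ ∉ S ∧ A.LiesOverPrime ℓ ∧ A.IsFrobeniusAt σ ℓ ∧ ∀ x ∈ K, g x = (σ ^ k) x := by
  haveI : Normal ℚ Qb := (S54.isGalois_rat).to_normal
  have hfd : FiniteDimensional ℚ ↥(IntermediateField.normalClosure ℚ K Qb) :=
    normalClosure.is_finiteDimensional ℚ K Qb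
  haveI : NumberField ↥(IntermediateField.normalClosure ℚ K Qb) := ⟨⟩
  haveI hnor : Normal ℚ ↥(IntermediateField.normalClosure ℚ K Qb) := normalClosure.normal ℚ K Qb
  haveI : IsGalois ℚ ↥(IntermediateField.normalClosure ℚ K Qb) := ⟨⟩
  obtain ⟨𝔓, ℓ, h𝔓, hℓ, hℓS, hℓ𝔓, hgen⟩ :=
    exists_frob_generator (M := ↥(IntermediateField.normalClosure ℚ K Qb))
      (AlgEquiv.restrictNormalHom _ g) S
  haveI := h𝔓
  obtain ⟨A, hA, hAσ⟩ := hC (IntermediateField.normalClosure ℚ K Qb) 𝔓 ℓ hℓ hℓ𝔓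
  obtain ⟨σ, hσ⟩ := S54.exists_isFrobeniusAt A ℓ hℓ hA
  obtain ⟨k, hk⟩ := hgen _ (hAσ σ hσ)
  refine ⟨ℓ, A, σ, k, hℓ, hℓS, hA, hσ, fun x hx => ?_⟩
  have hxK' : x ∈ IntermediateField.normalClosure ℚ K Qb := IntermediateField.le_normalClosure K hx
  have h1 := AlgEquiv.restrictNormal_commutes g (IntermediateField.normalClosure ℚ K Qb) ⟨x, hxK'⟩
  have h2 := AlgEquiv.restrictNormal_commutes (σ ^ k)
    (IntermediateField.normalClosure ℚ K Qb) ⟨x, hxK'⟩
  rw [← map_pow] at hk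
  have h3 : g.restrictNormal (IntermediateField.normalClosure ℚ K Qb) =
      (σ ^ k).restrictNormal (IntermediateField.normalClosure ℚ K Qb) := hk
  rw [h3] at h1
  exact h1.symm.trans h2

end Fermat.Agent.S42x.Dens.H16
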